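import Mathlib.FieldTheory.IntermediateField.Adjoin.Basic
import Mathlib.LinearAlgebra.Dimension.Finite
import Mathlib.Analysis.Real.Sqrt
import Mathlib.Algebra.Algebra.Rat
import Mathlib.Data.Rat.Lemmas
import Mathlib.Tactic.FieldSimp
import Mathlib.Tactic.LinearCombination

/-!
# Quadratic steps between real fields

`quad K s` is `K + K s` for `s² ∈ K`; a field of odd degree has no new square root.
-/

set_option autoImplicit false
set_option linter.style.haveILetI false

noncomputable section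

open Polynomial Module

namespace FA.HeegnerCongruent

variable {K : IntermediateField ℚ ℝ} {s : ℝ}

theorem eq_zero_of_add_mul (hs : s ∉ K) {a b : ℝ} (ha : a ∈ K) (hb : b ∈ K)
    (h : a + b * s = 0) : a = 0 ∧ b = 0 := by
  by_cases hb0 : b = 0
  · rw [hb0, zero_mul, add_zero] at h
    exact ⟨h, hb0⟩
  · refine absurd ?_ hs
    rw [show s = -a / b by field_simp; linear_combination h]
    exact div_mem (neg_mem ha) hb

/-- `K + K s` for `s² ∈ K`. -/
def quad (K : IntermediateField ℚ ℝ) (s : ℝ) (hs : s ^ 2 ∈ K) : IntermediateField ℚ ℝ :=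
  Subalgebra.toIntermediateField
    { carrier := {z | ∃ a ∈ K, ∃ b ∈ K, z = a + b * s}
      mul_mem' := by
        rintro _ _ ⟨a, ha, b, hb, rfl⟩ ⟨c, hc, d, hd, rfl⟩
        exact ⟨a * c + b * d * s ^ 2, add_mem (mul_mem ha hc) (mul_mem (mul_mem hb hd) hs),
          a * d + b * c, add_mem (mul_mem ha hd) (mul_mem hb hc), by ring⟩
      add_mem' := by
        rintro _ _ ⟨a, ha, b, hb, rfl⟩ ⟨c, hc, d, hd, rfl⟩
        exact ⟨a + c, add_mem ha hc, b + d, add_mem hb hd, by ring⟩
      algebraMap_mem' := fun r => ⟨_, K.algebraMap_mem r, 0, zero_mem K, by simp⟩ }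
    (by
      rintro _ ⟨a, ha, b, hb, rfl⟩
      show ∃ c ∈ K, ∃ d ∈ K, (a + b * s)⁻¹ = c + d * s
      by_cases hsK : s ∈ K
      · exact ⟨_, inv_mem (add_mem ha (mul_mem hb hsK)), 0, zero_mem K, by simp⟩
      by_cases hz : a + b * s = 0
      · exact ⟨0, zero_mem K, 0, zero_mem K, by simp [hz]⟩
      set n := a ^ 2 - b ^ 2 * s ^ 2 with hn
      have hnK : n ∈ K := sub_mem (pow_mem ha 2) (mul_mem (pow_mem hb 2) hs)
      have hn0 : n ≠ 0 := fun e => by
        rcases mul_eq_zero.1 (show (a + b * s) * (a + -b * s) = 0 by rw [← e, hn]; ring) with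
          h | h
        · exact hz h
        · obtain ⟨h1, h2⟩ := eq_zero_of_add_mul hsK ha (neg_mem hb) h
          exact hz (by simp [h1, neg_eq_zero.1 h2])
      refine ⟨a / n, div_mem ha hnK, -b / n, div_mem (neg_mem hb) hnK, ?_⟩
      field_simp
      rw [hn]
      ring)

variable {hs : s ^ 2 ∈ K}

theorem mem_quad {z : ℝ} : z ∈ quad K s hs ↔ ∃ a ∈ K, ∃ b ∈ K, z = a + b * s := Iff.rfl

theorem le_quad : K ≤ quad K s hs := fun z hz => ⟨z, hz, 0, zero_mem K, by simp⟩

theorem self_mem_quad : s ∈ quad K s hs := ⟨0, zero_mem K, 1, one_mem K, by simp⟩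

theorem quad_le {E : IntermediateField ℚ ℝ} (hKE : K ≤ E) (hsE : s ∈ E) : quad K s hs ≤ E := by
  rintro _ ⟨a, ha, b, hb, rfl⟩
  exact add_mem (hKE ha) (mul_mem (hKE hb) hsE)

/-- A square in `K` of an element of `K + K s` is a square of `a` or of `b s`. -/
theorem eq_zero_or_of_sq_mem (hsK : s ∉ K) (hs2 : s ^ 2 ∈ K) {a b : ℝ} (ha : a ∈ K) (hb : b ∈ K)
    (h : (a + b * s) ^ 2 ∈ K) : a = 0 ∨ b = 0 := by
  by_contra hn
  push Not at hn
  refine hsK ?_
  have e : s = ((a + b * s) ^ 2 - a ^ 2 - b ^ 2 * s ^ 2) / (2 * a * b) := by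
    field_simp [hn.1, hn.2]
    ring
  rw [e]
  exact div_mem (sub_mem (sub_mem h (pow_mem ha 2)) (mul_mem (pow_mem hb 2) hs2))
    (mul_mem (mul_mem (ofNat_mem K 2) ha) hb)

/-- Conjugation: a root `s` of a polynomial over `K` goes with `-s`. -/
theorem aeval_neg_eq_zero (hsK : s ∉ K) (hs2 : s ^ 2 ∈ K) {P : K[X]} (h : aeval s P = 0) :
    aeval (-s) P = 0 := by
  have key : ∀ Q : K[X], ∃ a ∈ K, ∃ b ∈ K, aeval s Q = a + b * s ∧ aeval (-s) Q = a - b * s := by
    intro Q
    induction Q using Polynomial.induction_on with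
    | C r => exact ⟨r, r.2, 0, zero_mem K, by simp, by simp⟩
    | add P Q hP hQ =>
      obtain ⟨a, ha, b, hb, h1, h2⟩ := hP
      obtain ⟨c, hc, d, hd, h3, h4⟩ := hQ
      exact ⟨a + c, add_mem ha hc, b + d, add_mem hb hd, by rw [map_add, h1, h3]; ring,
        by rw [map_add, h2, h4]; ring⟩
    | monomial n r hn =>
      obtain ⟨a, ha, b, hb, h1, h2⟩ := hn
      refine ⟨b * s ^ 2, mul_mem hb hs2, a, ha, ?_, ?_⟩
      · rw [pow_succ, ← mul_assoc, map_mul, h1, aeval_X]; ring
      · rw [pow_succ, ← mul_assoc, map_mul, h2, aeval_X]; ring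
  obtain ⟨a, ha, b, hb, h1, h2⟩ := key P
  obtain ⟨rfl, rfl⟩ := eq_zero_of_add_mul hsK ha hb (h1 ▸ h)
  rw [h2]
  simp

theorem finrank_quad_le [FiniteDimensional ℚ K] :
    finrank ℚ (quad K s hs) ≤ 2 * finrank ℚ K := by
  let i : K →ₗ[ℚ] quad K s hs := (IntermediateField.inclusion le_quad).toLinearMap
  let f : (K × K) →ₗ[ℚ] quad K s hs :=
    LinearMap.coprod i (LinearMap.mulRight ℚ ⟨s, self_mem_quad⟩ ∘ₗ i)
  have hf : Function.Surjective f := by
    rintro ⟨_, a, ha, b, hb, rfl⟩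
    exact ⟨(⟨a, ha⟩, ⟨b, hb⟩), Subtype.ext rfl⟩
  have := LinearMap.finrank_le_finrank_of_surjective hf
  rwa [Module.finrank_prod, ← two_mul] at this

/-- **A field of odd degree has no new square root.** -/
theorem mem_of_sq_mem {E F : IntermediateField ℚ ℝ} [FiniteDimensional ℚ F]
    (hodd : Odd (finrank ℚ F)) (hEF : E ≤ F) {η : ℝ} (hη : η ∈ F) (h2 : η ^ 2 ∈ E) : η ∈ E := by
  haveI : FiniteDimensional ℚ E :=
    Module.Finite.of_injective (IntermediateField.inclusion hEF).toLinearMap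
      (IntermediateField.inclusion hEF).injective
  set E' := quad E η h2 with hE'
  have hle : E' ≤ F := quad_le hEF hη
  haveI : FiniteDimensional ℚ E' :=
    Module.Finite.of_injective (IntermediateField.inclusion hle).toLinearMap
      (IntermediateField.inclusion hle).injective
  obtain ⟨k, hk⟩ := IntermediateField.finrank_dvd_of_le_right (le_quad : E ≤ E')
  have hpos : 0 < finrank ℚ E := Module.finrank_pos
  have hk2 : k ≤ 2 := Nat.le_of_mul_le_mul_left
    (by rw [← hk, mul_comm _ 2]; exact finrank_quad_le) hpos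
  have hk1 : k = 1 := by
    have hd := IntermediateField.finrank_dvd_of_le_right hle
    rw [hk] at hd
    have hk' := Odd.of_dvd_nat hodd ((dvd_mul_left k _).trans hd)
    obtain ⟨m, hm⟩ := hk'
    omega
  rw [hk1, mul_one] at hk
  rw [IntermediateField.eq_of_le_of_finrank_eq (le_quad : E ≤ E') hk.symm]
  exact self_mem_quad

/-- A field of odd degree contains no square root of a rational non-square. -/
theorem sq_ne_of_odd {F : IntermediateField ℚ ℝ} [FiniteDimensional ℚ F]
    (hodd : Odd (finrank ℚ F)) {q : ℚ} (hq : ¬ IsSquare q) {z : ℝ} (hz : z ∈ F) :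
    z ^ 2 ≠ (q : ℝ) := fun h => by
  have h2 : z ^ 2 ∈ (⊥ : IntermediateField ℚ ℝ) := by
    rw [h, IntermediateField.mem_bot]
    exact ⟨q, rfl⟩
  obtain ⟨r, rfl⟩ := IntermediateField.mem_bot.1 (mem_of_sq_mem hodd bot_le hz h2)
  rw [eq_ratCast] at h
  exact hq ⟨r, by exact_mod_cast (show (q : ℝ) = r * r by rw [← h, sq])⟩

/-- The degree of an element of a field of odd degree is odd. -/
theorem odd_natDegree_of_mem {F : IntermediateField ℚ ℝ} [FiniteDimensional ℚ F]
    (hodd : Odd (finrank ℚ F)) {z : ℝ} (hz : z ∈ F) : Odd (minpoly ℚ z).natDegree := by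
  refine Odd.of_dvd_nat hodd ?_
  rw [show minpoly ℚ z = minpoly ℚ (⟨z, hz⟩ : F) from
    minpoly.algHom_eq F.val F.val.injective ⟨z, hz⟩]
  exact minpoly.degree_dvd (Algebra.IsIntegral.isIntegral _)

end FA.HeegnerCongruent

end
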