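import Fermat.Agent.HeegnerCongruent.Radicals
import Fermat.Agent.Supersingular.ElkiesHauptmodul

/-!
# The `2`-neighbours of the order of discriminant `-p`

`-s(z) = 16 / (λ λ')` at `z = (1 + √-p) / 2`, `s = Δ(z) / Δ(2 z)`, and the neighbour
`w = (-1 + √-p) / 4` of `z`.
-/

set_option autoImplicit false
set_option linter.style.haveILetI false

noncomputable section

open UpperHalfPlane hiding I
open FA.ThetaAGM FA.ModField FA.JInj FA.CurveRed.Haupt IntermediateField
open FA.Singular (values disc IsRoot jfun_mem_values jfun_principal_eq isIntegral_values)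
open scoped MatrixGroups

namespace FA.HeegnerCongruent

/-- The other invariant, in `ℂ`. -/
def otherInvC (T : ℂ) : ℂ := -(T - 256) ^ 3 / T ^ 2

theorem otherInvC_ofReal (T : ℝ) : otherInvC (T : ℂ) = (otherInv T : ℂ) := by
  simp [otherInvC, otherInv]

theorem otherInvC_map (σ : ℂ ≃+* ℂ) (T : ℂ) : σ (otherInvC T) = otherInvC (σ T) := by
  simp [otherInvC, map_div₀, map_ofNat]

theorem jfun_eq_otherInvC (z : ℍ) : jfun z = otherInvC (-haupt2Fun z) := by
  have h := FA.Elkies.jfun_mul_haupt_sq z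
  have h0 := FA.Elkies.haupt_ne_zero z
  rw [otherInvC, eq_div_iff (pow_ne_zero 2 (neg_ne_zero.2 h0))]
  linear_combination h

theorem cube_neg_haupt (z : ℍ) :
    (-haupt2Fun z - 16) ^ 3 = jfun (scaleH 2 z) * -haupt2Fun z := by
  linear_combination FA.Elkies.jfun_scale_mul_haupt z

/-- Automorphisms preserve the singular moduli of one discriminant. -/
theorem map_mem_values (σ : ℂ ≃+* ℂ) {D : ℤ} (hD : D < 0) {u : ℂ} (hu : u ∈ values D) :
    σ u ∈ values D := by
  refine FA.Singular.root_mem_values hD hu ?_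
  rw [Polynomial.aeval_def,
    ← Subsingleton.elim (σ.toRingHom.comp (algebraMap ℤ ℂ)) (algebraMap ℤ ℂ)]
  rw [show σ u = σ.toRingHom u from rfl, ← Polynomial.hom_eval₂, ← Polynomial.aeval_def,
    minpoly.aeval, map_zero]

theorem exists_aut_values {D : ℤ} (hD : D < 0) {u v : ℂ} (hu : u ∈ values D) (hv : v ∈ values D) :
    ∃ σ : ℂ ≃+* ℂ, σ u = v := by
  have hi := isIntegral_values hD hu
  refine FA.Singular.exists_aut_of_root hi.tower_top ?_
  rw [minpoly.isIntegrallyClosed_eq_field_fractions' ℚ hi, Polynomial.aeval_map_algebraMap,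
    FA.Singular.minpoly_eq_of_mem hD hu hv, minpoly.aeval]

/-- The three roots of `(T - 16)³ = σ(j) T`. -/
theorem root_cases {t : ℝ} (ht : 0 < t) (σ : ℂ ≃+* ℂ) {r : ℂ}
    (h : (r - 16) ^ 3 = σ (jIm t : ℂ) * r) :
    r = σ (rootOne (modK t ^ 2) : ℂ) ∨ r = σ (rootTwo (modK t ^ 2) : ℂ) ∨
      r = σ (rootThree (modK t ^ 2) : ℂ) := by
  set l := modK t ^ 2 with hl
  have hl0 : (l : ℂ) ≠ 0 := Complex.ofReal_ne_zero.2 (pow_pos (modK_pos ht) 2).ne'
  have hl1 : 1 - (l : ℂ) ≠ 0 := by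
    rw [← Complex.ofReal_one, ← Complex.ofReal_sub, Complex.ofReal_ne_zero]
    nlinarith [modK_pos ht, modK_lt_one ht]
  obtain ⟨r, rfl⟩ := σ.surjective r
  have h' : (r - 16) ^ 3 = (jIm t : ℂ) * r := σ.injective (by
    rw [map_pow, map_sub, map_mul, map_ofNat]; exact h)
  have key : (r - (rootOne l : ℂ)) * (r - (rootTwo l : ℂ)) * (r - (rootThree l : ℂ)) = 0 := by
    have e : (r - 16) ^ 3 - (jOfLam l : ℂ) * r =
        (r - (rootOne l : ℂ)) * (r - (rootTwo l : ℂ)) * (r - (rootThree l : ℂ)) := by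
      simp only [jOfLam, rootOne, rootTwo, rootThree]
      push_cast
      field_simp
      ring
    rw [← e, h', show jIm t = jOfLam l from rfl, sub_self]
  simp only [mul_eq_zero, sub_eq_zero] at key
  rcases key with (e | e) | e <;> simp [e]

variable {p : ℕ} (hp : p.Prime) (h4 : p % 4 = 3)

include hp h4

omit h4 in
/-- The values `j(2√-p)` and `j(√-p / 2)` have discriminant `-16 p`. -/
theorem outer_mem_values (hp2 : p ≠ 2) :
    (jIm (2 * Real.sqrt p) : ℂ) ∈ values (-16 * (p : ℤ)) ∧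
      (jIm (Real.sqrt p / 2) : ℂ) ∈ values (-16 * (p : ℤ)) := by
  have hs := sqrt_pos_of_prime hp
  have hsq : Real.sqrt p ^ 2 = p := Real.sq_sqrt (Nat.cast_nonneg _)
  refine ⟨?_, ?_⟩
  · have := jIm_mem_values (t := 2 * Real.sqrt p) (by positivity) (a := 1) (c := 4 * p)
      (Nat.coprime_one_left _) one_pos (by have := hp.pos; omega)
      (by rw [mul_pow, hsq]; push_cast; ring)
    rwa [show -4 * ((1 * (4 * p) : ℕ) : ℤ) = -16 * (p : ℤ) by push_cast; ring] at this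
  · have := jIm_mem_values (t := Real.sqrt p / 2) (by positivity) (a := 4) (c := p)
      (show Nat.Coprime (2 ^ 2) p from Nat.Coprime.pow_left 2
        ((Nat.coprime_primes Nat.prime_two hp).2 hp2.symm))
      (by norm_num) hp.pos (by rw [div_pow, hsq]; push_cast; ring)
    rwa [show -4 * ((4 * p : ℕ) : ℤ) = -16 * (p : ℤ) by push_cast; ring] at this

omit h4 in
theorem principal_mem_values : (jIm (Real.sqrt p) : ℂ) ∈ values (-4 * (p : ℤ)) := by
  have := jIm_mem_values (sqrt_pos_of_prime hp) (a := 1) (c := p) (Nat.coprime_one_left p)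
    one_pos hp.pos (by rw [Real.sq_sqrt (Nat.cast_nonneg _)]; simp)
  rwa [one_mul] at this

/-- A root of `(T - 16)³ = σ(j) T` with other invariant of discriminant `-p` is `σ(x)`. -/
theorem eq_rootOne_of_other {σ : ℂ ≃+* ℂ} {r : ℂ}
    (h : (r - 16) ^ 3 = σ (jIm (Real.sqrt p) : ℂ) * r)
    (hj : otherInvC r ∈ values (-(p : ℤ))) :
    r = σ (rootOne (modK (Real.sqrt p) ^ 2) : ℂ) := by
  have hs := sqrt_pos_of_prime hp
  set l := modK (Real.sqrt p) ^ 2 with hl
  have hl0 : l ≠ 0 := (pow_pos (modK_pos hs) 2).ne'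
  have hl1 : 1 - l ≠ 0 := by nlinarith [modK_pos hs, modK_lt_one hs]
  have hne : -16 * (p : ℤ) ≠ -(p : ℤ) := by have := hp.pos; omega
  obtain ⟨h2, h3⟩ := outer_mem_values hp (by omega)
  have hD : -16 * (p : ℤ) < 0 := by have := hp.pos; omega
  have hD' : -(p : ℤ) < 0 := by have := hp.pos; omega
  rcases root_cases hs σ h with e | e | e
  · exact e
  · rw [e, ← otherInvC_map, otherInvC_ofReal, otherInv_rootTwo hl0 hl1, ← jIm_half hs] at hj
    exact absurd (values_disjoint hD hD' (map_mem_values σ hD h3) hj) hne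
  · rw [e, ← otherInvC_map, otherInvC_ofReal, otherInv_rootThree hl0 hl1, ← jIm_double hs] at hj
    exact absurd (values_disjoint hD hD' (map_mem_values σ hD h2) hj) hne

/-- `-(x - 256)³ / x²` is a singular modulus of discriminant `-p`. -/
theorem otherInv_mem_values :
    ∃ z : ℍ, ((z : ℂ) = (1 + Complex.I * (Real.sqrt p : ℂ)) / 2) ∧
      jfun z = (otherInv (rootOne (modK (Real.sqrt p) ^ 2)) : ℂ) ∧
      jfun z ∈ values (-(p : ℤ)) := by
  have hs := sqrt_pos_of_prime hp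
  have hsq : ((Real.sqrt p : ℝ) : ℂ) ^ 2 = (p : ℂ) := by
    rw [← Complex.ofReal_pow, Real.sq_sqrt (Nat.cast_nonneg _)]; norm_num
  obtain ⟨k, hk⟩ : ∃ k, p = 4 * k + 3 := ⟨p / 4, by omega⟩
  let z : ℍ := ⟨(1 + Complex.I * (Real.sqrt p : ℂ)) / 2, by
    simp [Complex.div_ofNat_im, hp.pos]⟩
  have hz : (z : ℂ) = (1 + Complex.I * (Real.sqrt p : ℂ)) / 2 := rfl
  have hk' : (p : ℂ) = 4 * k + 3 := by rw [hk]; push_cast; ring
  have hroot : IsRoot (1, -1, ((k + 1 : ℕ) : ℤ)) z := by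
    simp only [IsRoot, hz]
    push_cast
    linear_combination (1 / 4 : ℂ) * (Complex.I ^ 2 * hsq + (p : ℂ) * Complex.I_sq) -
      (1 / 4 : ℂ) * hk'
  have hd : disc (1, -1, ((k + 1 : ℕ) : ℤ)) = -(p : ℤ) := by
    simp only [disc, hk]; push_cast; ring
  have hv : jfun z ∈ values (-(p : ℤ)) :=
    hd ▸ jfun_mem_values one_pos (by rw [hd]; have := hp.pos; omega) (by simp) hroot
  refine ⟨z, hz, ?_, hv⟩
  have e : jfun (scaleH 2 z) = (jIm (Real.sqrt p) : ℂ) := by
    rw [← jfun_imPt_eq hs]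
    refine jfun_principal_eq (B := -2) (C := 1 + (p : ℤ)) (B' := 0) (C' := (p : ℤ)) (by ring) ?_ ?_
    · simp only [IsRoot, coe_scaleH, hz]
      push_cast
      linear_combination Complex.I ^ 2 * hsq + (p : ℂ) * Complex.I_sq
    · simp only [IsRoot, coe_imPt]
      push_cast
      linear_combination Complex.I ^ 2 * hsq + (p : ℂ) * Complex.I_sq
  have h := eq_rootOne_of_other hp h4 (σ := RingEquiv.refl ℂ) (r := -haupt2Fun z)
    (by rw [RingEquiv.refl_apply, ← e]; exact cube_neg_haupt z)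
    (jfun_eq_otherInvC z ▸ hv)
  rw [jfun_eq_otherInvC, h, RingEquiv.refl_apply, otherInvC_ofReal]

/-- **The neighbour `w = (-1 + √-p) / 4`.** -/
theorem exists_neighbour :
    ∃ r u : ℂ, r ≠ 0 ∧
      otherInvC r = (otherInv (rootOne (modK (Real.sqrt p) ^ 2)) : ℂ) ∧
      otherInvC (4096 / r) = u ∧ (r - 16) ^ 3 = u * r ∧
      (4096 / r - 16) ^ 3 = otherInvC r * (4096 / r) ∧
      (p % 8 = 7 → u ∈ values (-(p : ℤ))) ∧ (p % 8 = 3 → u ∈ values (-4 * (p : ℤ))) ∧
      (5 ≤ p → u ≠ (jIm (Real.sqrt p) : ℂ)) := by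
  have hs := sqrt_pos_of_prime hp
  have hsq : ((Real.sqrt p : ℝ) : ℂ) ^ 2 = (p : ℂ) := by
    rw [← Complex.ofReal_pow, Real.sq_sqrt (Nat.cast_nonneg _)]; norm_num
  let w : ℍ := ⟨(-1 + Complex.I * (Real.sqrt p : ℂ)) / 4, by
    simp [Complex.div_ofNat_im, hp.pos]⟩
  have hw : (w : ℂ) = (-1 + Complex.I * (Real.sqrt p : ℂ)) / 4 := rfl
  obtain ⟨z, hz, hjz, -⟩ := otherInv_mem_values hp h4
  obtain ⟨k, hk⟩ : ∃ k, p = 4 * k + 3 := ⟨p / 4, by omega⟩
  have hk' : (p : ℂ) = 4 * k + 3 := by rw [hk]; push_cast; ring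
  have e : jfun (scaleH 2 w) = jfun z := by
    refine jfun_principal_eq (B := 1) (C := (k : ℤ) + 1) (B' := -1) (C' := (k : ℤ) + 1)
      (by ring) ?_ ?_
    · simp only [IsRoot, coe_scaleH, hw]
      push_cast
      linear_combination (1 / 4 : ℂ) * (Complex.I ^ 2 * hsq + (p : ℂ) * Complex.I_sq) -
        (1 / 4 : ℂ) * hk'
    · simp only [IsRoot, hz]
      push_cast
      linear_combination (1 / 4 : ℂ) * (Complex.I ^ 2 * hsq + (p : ℂ) * Complex.I_sq) -
        (1 / 4 : ℂ) * hk'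
  set r := -(4096 / haupt2Fun w) with hr
  have h0 := FA.Elkies.haupt_ne_zero w
  have hr' : 4096 / r = -haupt2Fun w := by rw [hr]; field_simp
  have h1 := FA.Elkies.jfun_mul_haupt_sq w
  have h2 := FA.Elkies.jfun_scale_mul_haupt w
  rw [e] at h2
  have hrj : otherInvC r = jfun z := by
    rw [otherInvC, hr]
    field_simp
    linear_combination (-16777216 : ℂ) * h2
  refine ⟨r, jfun w, neg_ne_zero.2 (div_ne_zero (by norm_num) h0), hrj.trans hjz, ?_, ?_, ?_,
    fun h7 => ?_, fun h3 => ?_, fun h5 heq => ?_⟩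
  · rw [hr']; exact (jfun_eq_otherInvC w).symm
  · rw [hr]
    field_simp
    linear_combination (4096 : ℂ) * h1
  · rw [hr', hrj, ← e]; exact cube_neg_haupt w
  · obtain ⟨m, hm⟩ : ∃ m, p = 8 * m + 7 := ⟨p / 8, by omega⟩
    have hd : disc (2, 1, ((m + 1 : ℕ) : ℤ)) = -(p : ℤ) := by
      simp only [disc, hm]; push_cast; ring
    rw [← hd]
    refine jfun_mem_values two_pos (by rw [hd]; have := hp.pos; omega) (by simp) ?_
    have hm' : (p : ℂ) = 8 * m + 7 := by rw [hm]; push_cast; ring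
    simp only [IsRoot, hw]
    push_cast
    linear_combination (1 / 8 : ℂ) * (Complex.I ^ 2 * hsq + (p : ℂ) * Complex.I_sq) -
      (1 / 8 : ℂ) * hm'
  · obtain ⟨m, hm⟩ : ∃ m, p = 8 * m + 3 := ⟨p / 8, by omega⟩
    have hd : disc (4, 2, ((2 * m + 1 : ℕ) : ℤ)) = -4 * (p : ℤ) := by
      simp only [disc, hm]; push_cast; ring
    rw [← hd]
    refine jfun_mem_values four_pos (by rw [hd]; have := hp.pos; omega) ?_ ?_
    · have hc : Nat.Coprime 2 (2 * m + 1) := Nat.coprime_two_left.2 ⟨m, rfl⟩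
      show Int.gcd ((Int.gcd 4 2 : ℕ) : ℤ) ((2 * m + 1 : ℕ) : ℤ) = 1
      rw [Int.gcd_natCast_natCast, show Int.gcd 4 2 = 2 from rfl]
      exact hc
    have hm' : (p : ℂ) = 8 * m + 3 := by rw [hm]; push_cast; ring
    simp only [IsRoot, hw]
    push_cast
    linear_combination (1 / 4 : ℂ) * (Complex.I ^ 2 * hsq + (p : ℂ) * Complex.I_sq) -
      (1 / 4 : ℂ) * hm'
  · rw [← jfun_imPt_eq hs, jfun_eq_iff] at heq
    obtain ⟨g, hg⟩ := heq
    have him := congrArg UpperHalfPlane.im hg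
    rw [ModularGroup.im_smul_eq_div_normSq, ModularGroup.denom_apply] at him
    have hsq' : Real.sqrt p ^ 2 = p := Real.sq_sqrt (Nat.cast_nonneg _)
    simp [← UpperHalfPlane.coe_im, hw, coe_imPt, Complex.normSq_apply, Complex.div_ofNat_im] at him
    have hdet := Matrix.SpecialLinearGroup.det_coe g
    rw [Matrix.det_fin_two] at hdet
    have key : ∀ D : ℝ, Real.sqrt p / 4 / D = Real.sqrt p → 4 * D = 1 := fun D h => by
      have hD : D ≠ 0 := fun e0 => by rw [e0, div_zero] at h; linarith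
      field_simp at h
      linarith
    have hpos : (4 * (g.1 1 1 : ℝ) - g.1 1 0) ^ 2 + (p : ℝ) * (g.1 1 0 : ℝ) ^ 2 = 4 := by
      linear_combination 4 * key _ him - (g.1 1 0 : ℝ) ^ 2 * hsq'
    have hZ : (4 * g.1 1 1 - g.1 1 0) ^ 2 + (p : ℤ) * g.1 1 0 ^ 2 = 4 := by exact_mod_cast hpos
    rcases eq_or_ne (g.1 1 0) 0 with e0 | e0
    · rw [e0] at hZ
      rcases eq_or_ne (g.1 1 1) 0 with d0 | d0
      · rw [e0, d0] at hdet; simp at hdet
      · nlinarith [mul_self_pos.2 d0]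
    · have h1' : 1 ≤ g.1 1 0 ^ 2 := by nlinarith [sq_abs (g.1 1 0), Int.one_le_abs e0]
      have h5' : (5 : ℤ) ≤ p := by exact_mod_cast h5
      nlinarith [sq_nonneg (4 * g.1 1 1 - g.1 1 0)]

end FA.HeegnerCongruent

end
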