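import Mathlib.FieldTheory.IntermediateField.Adjoin.Basic
import Mathlib.Algebra.Polynomial.RingDivision
import Mathlib.Tactic.Positivity

/-!
# A point of odd degree on `c y² = f (x)` gives a rational point

For a quartic `f` whose leading coefficient is not `c` times a square, a zero of odd degree `h > 1`
of `f - c g²`, `deg g < h`, leads to one of smaller odd degree.
-/

set_option autoImplicit false

noncomputable section

open Polynomial

namespace FA.HeegnerCongruent

/-- A polynomial of odd degree has an irreducible monic factor of odd degree. -/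
theorem exists_odd_factor {R : Type*} [Field R] (q : R[X]) (hq : Odd q.natDegree) :
    ∃ m : R[X], m.Monic ∧ Irreducible m ∧ Odd m.natDegree ∧ m ∣ q := by
  induction hn : q.natDegree using Nat.strong_induction_on generalizing q with
  | _ n ih =>
    have hpos : 0 < q.natDegree := hq.pos
    have hq0 : q ≠ 0 := fun e => by simp [e] at hpos
    have hu : ¬ IsUnit q := fun e => by
      rw [natDegree_eq_zero_of_isUnit e] at hpos
      omega
    obtain ⟨m, hm, hirr, r, rfl⟩ := exists_monic_irreducible_factor q hu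
    rcases Nat.even_or_odd m.natDegree with he | ho
    · have hr : r ≠ 0 := right_ne_zero_of_mul hq0
      rw [natDegree_mul hm.ne_zero hr] at hq hn
      have hm1 := hirr.natDegree_pos
      obtain ⟨m', h1, h2', h3, h4⟩ := ih r.natDegree (by omega) r
        ((Nat.odd_add.1 (by rwa [add_comm] at hq)).2 he) rfl
      exact ⟨m', h1, h2', h3, h4.mul_left m⟩
    · exact ⟨m, hm, hirr, ho, dvd_mul_right m r⟩

variable {f : ℚ[X]} {c : ℚ}

/-- The degree of `f - c g²`. -/
theorem natDegree_sub_sq (hf : f.natDegree = 4) (hc : c ≠ 0)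
    (hsq : ¬ IsSquare (f.leadingCoeff / c)) (g : ℚ[X]) :
    (f - C c * g ^ 2).natDegree = max 4 (2 * g.natDegree) := by
  have hd : (C c * g ^ 2).natDegree = 2 * g.natDegree := by
    rw [natDegree_C_mul hc, natDegree_pow]
  rcases lt_trichotomy (2 * g.natDegree) 4 with h | h | h
  · rw [natDegree_sub_eq_left_of_natDegree_lt (by omega), max_eq_left h.le, hf]
  · rw [h, max_self]
    refine natDegree_eq_of_le_of_coeff_ne_zero
      ((natDegree_sub_le _ _).trans (by omega)) fun e => hsq ⟨g.leadingCoeff, ?_⟩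
    rw [coeff_sub, sub_eq_zero] at e
    have h1 : (C c * g ^ 2).coeff 4 = c * g.leadingCoeff ^ 2 := by
      rw [← h, ← hd, coeff_natDegree, leadingCoeff_mul, leadingCoeff_C, leadingCoeff_pow]
    have h2 : f.coeff 4 = f.leadingCoeff := by rw [leadingCoeff, hf]
    rw [h1, h2] at e
    rw [e]
    field_simp
  · rw [natDegree_sub_eq_right_of_natDegree_lt (by omega), max_eq_right h.le, hd]

/-- **The reduction of the degree.** -/
theorem exists_point_of_dvd (hf : f.natDegree = 4) (hc : c ≠ 0)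
    (hsq : ¬ IsSquare (f.leadingCoeff / c)) {m : ℚ[X]} (hm : m.Monic) (hodd : Odd m.natDegree)
    (g : ℚ[X]) (hdvd : m ∣ f - C c * g ^ 2) : ∃ x y : ℚ, c * y ^ 2 = f.eval x := by
  induction hn : m.natDegree using Nat.strong_induction_on generalizing m g with
  | _ n ih =>
    set g' := g %ₘ m with hg'
    have hdvd' : m ∣ f - C c * g' ^ 2 := by
      rw [show f - C c * g' ^ 2 = f - C c * g ^ 2 + C c * ((g - g') * (g + g')) by ring]
      refine dvd_add hdvd (Dvd.dvd.mul_left (Dvd.dvd.mul_right ⟨g /ₘ m, ?_⟩ _) _)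
      rw [hg']
      linear_combination -(modByMonic_add_div g m)
    obtain ⟨q, hq⟩ := hdvd'
    rcases eq_or_ne n 1 with rfl | hn1
    · obtain ⟨a, rfl⟩ : ∃ a, m = X + C a := ⟨_, hm.eq_X_add_C hn⟩
      refine ⟨-a, g'.eval (-a), ?_⟩
      have := congrArg (Polynomial.eval (-a)) hq
      simp at this
      linear_combination -this
    have hlt : g'.natDegree < m.natDegree :=
      natDegree_modByMonic_lt g hm fun e => by rw [e] at hodd; simp at hodd
    have hne : f - C c * g' ^ 2 ≠ 0 := fun e => by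
      have := natDegree_sub_sq hf hc hsq g'
      rw [e, natDegree_zero] at this
      omega
    have hq0 : q ≠ 0 := fun e => hne (by rw [hq, e, mul_zero])
    have hdeg := natDegree_sub_sq hf hc hsq g'
    rw [hq, natDegree_mul hm.ne_zero hq0] at hdeg
    obtain ⟨k, hk⟩ := hodd
    have hqlt : q.natDegree < n ∧ Odd q.natDegree := by
      rcases le_total (2 * g'.natDegree) 4 with h | h
      · rw [max_eq_left h] at hdeg
        exact ⟨by omega, Nat.odd_iff.2 (by omega)⟩
      · rw [max_eq_right h] at hdeg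
        exact ⟨by omega, Nat.odd_iff.2 (by omega)⟩
    obtain ⟨m', hm', -, hodd', r, hr⟩ := exists_odd_factor q hqlt.2
    have hr0 : r ≠ 0 := fun e => hq0 (by rw [hr, e, mul_zero])
    refine ih m'.natDegree ?_ hm' hodd' g' ⟨m * r, by rw [hq, hr]; ring⟩ rfl
    have := congrArg natDegree hr
    rw [natDegree_mul hm'.ne_zero hr0] at this
    omega

/-- **A point of odd degree gives a rational point.** -/
theorem exists_rat_point {K : Type*} [Field K] [Algebra ℚ K] (hf : f.natDegree = 4) (hc : c ≠ 0)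
    (hsq : ¬ IsSquare (f.leadingCoeff / c)) {θ η : K} (hθ : IsIntegral ℚ θ)
    (hodd : Odd (minpoly ℚ θ).natDegree) (hη : η ∈ IntermediateField.adjoin ℚ ({θ} : Set K))
    (he : algebraMap ℚ K c * η ^ 2 = aeval θ f) : ∃ x y : ℚ, c * y ^ 2 = f.eval x := by
  rw [← IntermediateField.mem_toSubalgebra,
    IntermediateField.adjoin_simple_toSubalgebra_of_isAlgebraic hθ.isAlgebraic,
    Algebra.adjoin_singleton_eq_range_aeval] at hη
  obtain ⟨g, rfl⟩ := hη
  refine exists_point_of_dvd hf hc hsq (minpoly.monic hθ) hodd g (minpoly.dvd ℚ θ ?_)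
  rw [map_sub, map_mul, map_pow, aeval_C, sub_eq_zero]
  exact he.symm

theorem quartic_natDegree {a : ℚ} (ha : a ≠ 0) :
    (C a * X ^ 4 - 1 : ℚ[X]).natDegree = 4 ∧ (C a * X ^ 4 - 1 : ℚ[X]).leadingCoeff = a := by
  have h : (C a * X ^ 4 - 1 : ℚ[X]).natDegree = 4 := by
    rw [← C_1, natDegree_sub_C, natDegree_C_mul ha, natDegree_X_pow]
  refine ⟨h, ?_⟩
  rw [leadingCoeff, h, coeff_sub, coeff_C_mul, coeff_X_pow, coeff_one]
  simp

/-- A square times a prime is no square. -/
theorem not_isSquare_div_prime {p : ℕ} (hp : p.Prime) (a : ℕ) (ha : a ≠ 0) :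
    ¬ IsSquare (((a ^ 2 : ℕ) : ℚ) / p) := by
  rintro ⟨r, hr⟩
  have hp0 : (p : ℚ) ≠ 0 := Nat.cast_ne_zero.2 hp.ne_zero
  have : IsSquare ((p : ℕ) : ℚ) := by
    have hr0 : r ≠ 0 := fun e => by
      rw [e, mul_zero, div_eq_zero_iff] at hr
      simp [hp0, ha] at hr
    refine ⟨(a : ℚ) / r, ?_⟩
    push_cast at hr
    field_simp at hr ⊢
    linear_combination -hr
  exact (Nat.prime_iff.1 hp).not_isSquare (Rat.isSquare_natCast_iff.1 this)

/-- **`p y² = 64 x⁴ - 1` gives that `2 p` is congruent.** -/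
theorem congruent_two_mul_of_point {p : ℕ} (hp : p.Prime) {x y : ℚ}
    (h : (p : ℚ) * y ^ 2 = 64 * x ^ 4 - 1) :
    ∃ a b c : ℚ, 0 < a ∧ 0 < b ∧ 0 < c ∧ a ^ 2 + b ^ 2 = c ^ 2 ∧ a * b / 2 = ((2 * p : ℕ) : ℚ) := by
  have hp0 : (0 : ℚ) < p := Nat.cast_pos.2 hp.pos
  have hx : x ≠ 0 := fun e => by subst e; nlinarith [mul_nonneg hp0.le (sq_nonneg y)]
  have hy : y ≠ 0 := fun e => by
    subst e
    have h64 : (8 * x ^ 2 - 1) * (8 * x ^ 2 + 1) = 0 := by linear_combination -h
    rcases mul_eq_zero.1 h64 with e | e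
    · have h8 : IsSquare ((8 : ℕ) : ℚ) := ⟨8 * x, by push_cast; linear_combination -8 * e⟩
      obtain ⟨r, hr⟩ := Rat.isSquare_natCast_iff.1 h8
      have : r < 3 := by nlinarith
      interval_cases r <;> omega
    · nlinarith [sq_nonneg x]
  set a := 8 * x ^ 2 with ha
  have ha1 : 1 < a := by
    have : 0 < (p : ℚ) * y ^ 2 := by positivity
    nlinarith [sq_nonneg x]
  set s := |2 * x * y| with hs
  have hs0 : 0 < s := abs_pos.2 (by simp [hx, hy])
  have hs2 : s ^ 2 = (2 * x * y) ^ 2 := sq_abs _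
  refine ⟨(a ^ 2 - 1) / s, 2 * a / s, (a ^ 2 + 1) / s, div_pos (by nlinarith) hs0,
    div_pos (by linarith) hs0, div_pos (by positivity) hs0, by field_simp; ring, ?_⟩
  push_cast
  field_simp
  rw [hs2, ha]
  linear_combination -(8 * x ^ 2) * h

end FA.HeegnerCongruent

end
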