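import Fermat.Agent.HeegnerCongruent.Moduli
import Fermat.Agent.HeegnerCongruent.Quad
import Fermat.Agent.Tau.CMFields
import Fermat.Agent.Tau.RealModuli
import Fermat.Agent.Root.SummaryGenusField

/-!
# The singular moduli `j (i t)`, `t² / p` a power of `4`

For a prime `p ≡ 3 (mod 4)`: `ℚ(j(√-p))` has odd degree, `√p ∈ ℚ(j(2√-p))`, `√2 ∈ ℚ(j(4√-p))`,
`j(√-p/8) ∈ ℚ(j(8√-p))`, and values of different discriminants are different.
-/

set_option autoImplicit false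
set_option linter.style.haveILetI false

noncomputable section

open UpperHalfPlane hiding I
open FA.ThetaAGM FA.ModField FA.JInj Module IntermediateField
open FA.Singular (values disc jfun_mem_values natDegree_minpoly isIntegral_values)

namespace FA.HeegnerCongruent

/-- Membership in a simple real field, tested in `ℂ`. -/
theorem ofReal_mem_adjoin_iff {a b : ℝ} : (b : ℂ) ∈ ℚ⟮(a : ℂ)⟯ ↔ b ∈ ℚ⟮a⟯ := by
  set f : ℝ →ₐ[ℚ] ℂ := Complex.ofRealAm.restrictScalars ℚ with hf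
  have e : ℚ⟮a⟯.map f = ℚ⟮(a : ℂ)⟯ := by
    rw [adjoin_map, Set.image_singleton]
    rfl
  rw [← e, IntermediateField.mem_map]
  exact ⟨fun ⟨w, hw, h⟩ => Complex.ofReal_injective h ▸ hw, fun h => ⟨b, h, rfl⟩⟩

theorem minpoly_ofReal (a : ℝ) : minpoly ℚ (a : ℂ) = minpoly ℚ a :=
  minpoly.algHom_eq (Complex.ofRealAm.restrictScalars ℚ) Complex.ofReal_injective a

/-- `j (i t)` is a singular modulus when `a t² = c`. -/
theorem jIm_mem_values {t : ℝ} (ht : 0 < t) {a c : ℕ} (hg : Nat.Coprime a c) (ha : 0 < a)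
    (hc : 0 < c) (h : (a : ℝ) * t ^ 2 = c) : (jIm t : ℂ) ∈ values (-4 * ((a * c : ℕ) : ℤ)) := by
  have hd : disc ((a : ℤ), 0, (c : ℤ)) = -4 * ((a * c : ℕ) : ℤ) := by
    simp only [disc]
    push_cast
    ring
  rw [← jfun_imPt_eq ht, ← hd]
  refine jfun_mem_values (Int.natCast_pos.2 ha) ?_ (by simpa using hg) ?_
  · rw [hd]
    have : 0 < a * c := Nat.mul_pos ha hc
    omega
  · simp only [FA.Singular.IsRoot, coe_imPt]
    push_cast
    have h' : (a : ℂ) * (t : ℂ) ^ 2 = c := by exact_mod_cast h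
    linear_combination ((a : ℂ) * (t : ℂ) ^ 2) * Complex.I_sq - h'

/-- Values of different discriminants are different. -/
theorem values_disjoint {D D' : ℤ} (hD : D < 0) (hD' : D' < 0) {u : ℂ} (hu : u ∈ values D)
    (hu' : u ∈ values D') : D = D' := by
  obtain ⟨⟨a, b, c⟩, ⟨hd, hg, ha, -⟩, τ, hτ, rfl⟩ := hu
  obtain ⟨⟨a', b', c'⟩, ⟨hd', hg', ha', -⟩, τ', hτ', he⟩ := hu'
  obtain ⟨g, rfl⟩ := (jfun_eq_iff _ _).1 he
  have h1 := FA.CMFields.isMultiplierRing_of_root ha hd hg hτ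
  have h2 := FA.CMFields.isMultiplierRing_of_root ha' hd' hg' hτ'
  exact FA.CMFields.eq_of_isMultiplierRing hD hD'
    (fun w => (FA.Singular.stable_smul τ' g w).symm.trans (h1 w)) h2

theorem natDegree_jIm {t : ℝ} (ht : 0 < t) {a c : ℕ} (hg : Nat.Coprime a c) (ha : 0 < a)
    (hc : 0 < c) (h : (a : ℝ) * t ^ 2 = c) :
    IsIntegral ℚ (jIm t) ∧
      (minpoly ℚ (jIm t)).natDegree = (FA.Singular.Red (-4 * ((a * c : ℕ) : ℤ))).ncard := by
  have hv := jIm_mem_values ht hg ha hc h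
  have hD : -4 * ((a * c : ℕ) : ℤ) < 0 := by
    have : 0 < a * c := Nat.mul_pos ha hc
    omega
  refine ⟨?_, by rw [← minpoly_ofReal, natDegree_minpoly hD hv]⟩
  exact (isIntegral_algHom_iff (Complex.ofRealAm.restrictScalars ℚ) Complex.ofReal_injective).1
    (isIntegral_values hD hv).tower_top

theorem mul_imPt_sq {p r : ℕ} {n : ℕ} (hn : r ^ 2 * p = n) (h : 0 < (r : ℝ) * Real.sqrt p) :
    ((imPt (r * Real.sqrt p) h : ℍ) : ℂ) ^ 2 = -(n : ℂ) := by
  have : ((Real.sqrt p : ℝ) : ℂ) ^ 2 = (p : ℂ) := by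
    rw [← Complex.ofReal_pow, Real.sq_sqrt (Nat.cast_nonneg _)]
    norm_num
  rw [coe_imPt, ← hn]
  push_cast
  linear_combination ((r : ℂ) ^ 2 * Complex.I ^ 2) * this + (r : ℂ) ^ 2 * (p : ℂ) * Complex.I_sq

variable {p : ℕ} (hp : p.Prime) (h4 : p % 4 = 3)

include hp

theorem sqrt_pos_of_prime : 0 < Real.sqrt p := Real.sqrt_pos.2 (Nat.cast_pos.2 hp.pos)

include h4

/-- `ℚ(j(√-p))` has odd degree. -/
theorem odd_degree_field :
    ∃ _ : FiniteDimensional ℚ ℚ⟮jIm (Real.sqrt p)⟯, Odd (finrank ℚ ℚ⟮jIm (Real.sqrt p)⟯) := by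
  obtain ⟨hi, hdeg⟩ := natDegree_jIm (sqrt_pos_of_prime hp) (a := 1) (c := p)
    (Nat.coprime_one_left p)
    one_pos hp.pos (by rw [Real.sq_sqrt (Nat.cast_nonneg _)]; simp)
  haveI : NeZero p := ⟨hp.ne_zero⟩
  refine ⟨adjoin.finiteDimensional hi, ?_⟩
  rw [adjoin.finrank hi, hdeg, one_mul, FA.RingClassJ.ncard_red_eq]
  exact (FA.CMFields.odd_classNumber_iff p).2
    (Or.inr (Or.inr (Or.inr ⟨p, 1, hp, h4, odd_one, (pow_one p).symm⟩)))

/-- `√p ∈ ℚ(j(2√-p))`. -/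
theorem sqrt_mem_twice : Real.sqrt p ∈ ℚ⟮jIm (2 * Real.sqrt p)⟯ := by
  have ht : 0 < ((2 : ℕ) : ℝ) * Real.sqrt p := mul_pos two_pos (sqrt_pos_of_prime hp)
  have hτ := mul_imPt_sq (r := 2) (n := 4 * p) (by ring) ht
  haveI : NeZero (4 * p) := ⟨by have := hp.ne_zero; omega⟩
  have h1 := (FA.Summary.genusField_sqrt_mem (4 * p) hτ (D := -p) (Or.inl ⟨p, hp, by omega,
    dvd_mul_left p 4, by rw [(show Odd (p / 2) from Nat.odd_iff.2 (by omega)).neg_one_pow]; ring⟩)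
    (x := Complex.I * (Real.sqrt p : ℂ)) (by
      rw [mul_pow, Complex.I_sq, ← Complex.ofReal_pow, Real.sq_sqrt (Nat.cast_nonneg _)]
      push_cast; ring)).1
  have h2 := (FA.Summary.genusField_sqrt_mem (4 * p) hτ (D := -1) (Or.inr (Or.inl
    ⟨rfl, Or.inl (Nat.mul_mod_right 4 p)⟩)) (x := Complex.I) (by simp)).1
  have h3 : (Real.sqrt p : ℂ) ∈
      IntermediateField.adjoin ℚ {((imPt _ ht : ℍ) : ℂ), jfun (imPt _ ht)} := by
    rw [show (Real.sqrt p : ℂ) = -(Complex.I * (Complex.I * (Real.sqrt p : ℂ))) by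
      rw [← mul_assoc, Complex.I_mul_I]; ring]
    exact neg_mem (mul_mem h2 h1)
  have h5 := FA.GenusField.mem_adjoin_j (4 * p) hτ h3 (Complex.ofReal_im _)
  rw [jfun_imPt_eq, ofReal_mem_adjoin_iff] at h5
  exact_mod_cast h5

omit h4 in
/-- `√2 ∈ ℚ(j(4√-p))`. -/
theorem sqrt_two_mem_four : Real.sqrt 2 ∈ ℚ⟮jIm (4 * Real.sqrt p)⟯ := by
  have ht : 0 < ((4 : ℕ) : ℝ) * Real.sqrt p := mul_pos (by norm_num) (sqrt_pos_of_prime hp)
  have hτ := mul_imPt_sq (r := 4) (n := 16 * p) (by ring) ht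
  haveI : NeZero (16 * p) := ⟨by have := hp.ne_zero; omega⟩
  have h := (FA.Summary.genusField_sqrt_mem (16 * p) hτ (D := 2) (Or.inr (Or.inr (Or.inl
    ⟨rfl, Or.inl (by omega)⟩))) (x := (Real.sqrt 2 : ℂ)) (by
      rw [← Complex.ofReal_pow, Real.sq_sqrt zero_le_two]; norm_num)).2 two_pos
  change _ ∈ IntermediateField.adjoin ℚ {jfun (imPt _ ht)} at h
  rw [jfun_imPt_eq, ofReal_mem_adjoin_iff] at h
  exact_mod_cast h

omit h4 in
/-- `j(√-p / 8) ∈ ℚ(j(8√-p))`. -/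
theorem eighth_mem (hp2 : p ≠ 2) : jIm (Real.sqrt p / 8) ∈ ℚ⟮jIm (8 * Real.sqrt p)⟯ := by
  have ht : 0 < ((8 : ℕ) : ℝ) * Real.sqrt p := mul_pos (by norm_num) (sqrt_pos_of_prime hp)
  have hτ := mul_imPt_sq (r := 8) (n := 64 * p) (by ring) ht
  haveI : NeZero (64 * p) := ⟨by have := hp.ne_zero; omega⟩
  have hv := jIm_mem_values (t := Real.sqrt p / 8) (a := 64) (c := p)
    (div_pos (sqrt_pos_of_prime hp) (by norm_num))
    (show Nat.Coprime (2 ^ 6) p from Nat.Coprime.pow_left 6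
      ((Nat.coprime_primes Nat.prime_two hp).2 hp2.symm))
    (by norm_num) hp.pos (by rw [div_pow, Real.sq_sqrt (Nat.cast_nonneg _)]; push_cast; ring)
  have h := FA.RealModuli.mem_adjoin_of_real (64 * p) hτ hv (Complex.ofReal_im _)
  rw [jfun_imPt_eq, ofReal_mem_adjoin_iff] at h
  exact_mod_cast h

/-- No field of odd degree contains `j(2√-p)` or `j(√-p / 2)`. -/
theorem not_mem_of_odd {E : IntermediateField ℚ ℝ} [FiniteDimensional ℚ E]
    (hodd : Odd (finrank ℚ E)) :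
    jIm (2 * Real.sqrt p) ∉ E ∧ jIm (Real.sqrt p / 2) ∉ E := by
  have hs := sqrt_pos_of_prime hp
  have hsq : Real.sqrt p ^ 2 = p := Real.sq_sqrt (Nat.cast_nonneg _)
  obtain ⟨hi, hd⟩ := natDegree_jIm (t := 2 * Real.sqrt p) (by positivity) (a := 1) (c := 4 * p)
    (Nat.coprime_one_left _) one_pos (by have := hp.pos; omega)
    (by rw [mul_pow, hsq]; push_cast; ring)
  obtain ⟨-, hd'⟩ := natDegree_jIm (t := Real.sqrt p / 2) (by positivity) (a := 4) (c := p)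
    (show Nat.Coprime (2 ^ 2) p from Nat.Coprime.pow_left 2
      ((Nat.coprime_primes Nat.prime_two hp).2 (by omega)))
    (by norm_num) hp.pos (by rw [div_pow, hsq]; push_cast; ring)
  rw [one_mul] at hd
  rw [← hd] at hd'
  have key : ¬ Odd (minpoly ℚ (jIm (2 * Real.sqrt p))).natDegree := fun h => by
    haveI : FiniteDimensional ℚ ℚ⟮jIm (2 * Real.sqrt p)⟯ := adjoin.finiteDimensional hi
    refine sq_ne_of_odd (by rwa [adjoin.finrank hi]) (q := p) ?_ (sqrt_mem_twice hp h4) ?_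
    · rw [Rat.isSquare_natCast_iff]
      exact (Nat.prime_iff.1 hp).not_isSquare
    · rw [hsq]; norm_num
  exact ⟨fun h => key (odd_natDegree_of_mem hodd h),
    fun h => key (hd' ▸ odd_natDegree_of_mem hodd h)⟩

end FA.HeegnerCongruent

end
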