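import Fermat.Agent.HeegnerCongruent.Norm
import Fermat.Agent.HeegnerCongruent.Descent
import Fermat.Agent.Monsky.EvenPoints

/-!
# Heegner: twice a prime `p ≡ 3 (mod 4)` is congruent

With `F = ℚ(j(√-p))` of odd degree, `k k' = w²` in `F` and `p c² / w⁴ = 64 (1 / 4 w)⁴ - 1`.
-/

set_option autoImplicit false
set_option linter.style.haveILetI false

noncomputable section

open Polynomial Module IntermediateField

namespace FA.HeegnerCongruent

variable {p : ℕ} (hp : p.Prime) (h4 : p % 4 = 3)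

include hp h4

/-- **`k k'` is a square in `ℚ(j(√-p))`.** -/
theorem exists_sq_eq (h5 : 5 ≤ p) :
    ∃ w ∈ ℚ⟮jIm (Real.sqrt p)⟯, modK (Real.sqrt p) * modKc (Real.sqrt p) = w ^ 2 := by
  have hs := sqrt_pos_of_prime hp
  obtain ⟨hx, -⟩ := rootOne_mem hp h4 (t := Real.sqrt p) rfl
  obtain ⟨w, hw, d, hd, hkw⟩ := modK_mul_eq hp h4 (t := Real.sqrt p) rfl
  obtain ⟨_, hodd⟩ := odd_degree_field hp h4
  have hkk : 0 < modK (Real.sqrt p) * modKc (Real.sqrt p) :=
    mul_pos (modK_pos hs) (modKc_pos hs)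
  have hx' : rootOne (modK (Real.sqrt p) ^ 2) =
      16 / (modK (Real.sqrt p) * modKc (Real.sqrt p)) ^ 2 := by
    rw [rootOne, mul_pow, show 1 - modK (Real.sqrt p) ^ 2 = modKc (Real.sqrt p) ^ 2 by
      linarith [modK_sq_add hs]]
  by_cases h256 : rootOne (modK (Real.sqrt p) ^ 2) = 256
  · refine ⟨1 / 2, div_mem (one_mem _) (ofNat_mem _ 2), ?_⟩
    rw [hx', div_eq_iff (pow_ne_zero 2 hkk.ne')] at h256
    have : (modK (Real.sqrt p) * modKc (Real.sqrt p)) ^ 2 = (1 / 4) ^ 2 := by linarith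
    rw [(pow_left_inj₀ hkk.le (by norm_num) two_ne_zero).1 this]
    norm_num
  rcases eq_or_ne d 1 with rfl | hd1
  · exact ⟨w, hw, by rw [hkw, Nat.cast_one, one_mul]⟩
  exfalso
  have hw0 : w ≠ 0 := fun e => by rw [hkw, e] at hkk; simp at hkk
  have hd0 : d ≠ 0 := fun e => by rw [hkw, e] at hkk; simp at hkk
  set F := ℚ⟮jIm (Real.sqrt p)⟯ with hF
  obtain ⟨e, he, hN⟩ := norm_rootOne hp h4 h5 h256 ⟨_, hx⟩ rfl
  have heq : (⟨_, hx⟩ : F) * (algebraMap ℚ F ((d : ℚ) ^ 2) * (⟨w, hw⟩ : F) ^ 4) =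
      algebraMap ℚ F 16 := by
    apply Subtype.ext
    push_cast
    rw [hx', hkw]
    simp only [map_ofNat]
    have hd' : (d : ℝ) ≠ 0 := Nat.cast_ne_zero.2 hd0
    field_simp
    rfl
  have h := congrArg (fun y => |Algebra.norm ℚ y|) heq
  simp only [map_mul, map_pow, Algebra.norm_algebraMap, abs_mul, abs_pow, Nat.abs_cast,
    abs_of_pos (show (0 : ℚ) < 16 by norm_num), hN] at h
  set h' := finrank ℚ F with hh
  set n := |Algebra.norm ℚ (⟨w, hw⟩ : F)| with hn
  have hn0 : n ≠ 0 := by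
    rw [hn, abs_ne_zero, Algebra.norm_ne_zero_iff]
    exact fun e => hw0 (congrArg Subtype.val e)
  have hdq : (d : ℚ) ≠ 0 := Nat.cast_ne_zero.2 hd0
  have key : ∀ q : ℕ, q.Prime →
      ((e * h' : ℕ) : ℤ) * padicValRat q 2 + 2 * (h' : ℤ) * padicValRat q d + 4 * padicValRat q n =
        4 * (h' : ℤ) * padicValRat q 2 := fun q hq => by
    haveI := Fact.mk hq
    have h2 : (2 : ℚ) ≠ 0 := two_ne_zero
    have hv := congrArg (padicValRat q) h
    rw [show (16 : ℚ) = 2 ^ 4 by norm_num, padicValRat.mul (by positivity) (by positivity),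
      padicValRat.mul (by positivity) (by positivity), padicValRat.pow, padicValRat.pow,
      padicValRat.pow, padicValRat.pow, padicValRat.pow, padicValRat.pow] at hv
    push_cast at hv ⊢
    linarith
  obtain ⟨m, hm⟩ := hodd
  have hp2 : (2 : ℕ) ≠ p := by omega
  haveI := Fact.mk hp
  haveI : Fact (Nat.Prime 2) := ⟨Nat.prime_two⟩
  have h22 : padicValRat 2 (2 : ℚ) = 1 := by
    simpa using padicValRat.self (p := 2) one_lt_two
  have h2p : padicValRat p (2 : ℚ) = 0 := by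
    rw [show (2 : ℚ) = ((2 : ℕ) : ℚ) by norm_num, padicValRat.of_nat,
      padicValNat_primes hp2.symm]
    rfl
  rcases hd with hd | hd | hd | hd <;> rw [hd] at key
  · exact hd1 hd
  · have k := key 2 Nat.prime_two
    push_cast [h22] at k
    rcases he with rfl | rfl <;> (push_cast at k; omega)
  · have k := key p hp
    rw [h2p, padicValRat.self hp.one_lt] at k
    omega
  · have k := key p hp
    push_cast at k
    rw [padicValRat.mul two_ne_zero (Nat.cast_ne_zero.2 hp.ne_zero), h2p,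
      padicValRat.self hp.one_lt] at k
    omega

omit h4 in
/-- **Heegner's theorem.** -/
theorem two_mul_congruent (h4 : p % 4 = 3) :
    ∃ a b c : ℚ, 0 < a ∧ 0 < b ∧ 0 < c ∧ a ^ 2 + b ^ 2 = c ^ 2 ∧ a * b / 2 = ((2 * p : ℕ) : ℚ) := by
  rcases (show p = 3 ∨ 5 ≤ p by omega) with rfl | h5
  · exact ⟨3, 4, 5, by norm_num, by norm_num, by norm_num, by norm_num, by norm_num⟩
  have hs := sqrt_pos_of_prime hp
  obtain ⟨-, c, hc, hl, -⟩ := rootOne_mem hp h4 (t := Real.sqrt p) rfl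
  obtain ⟨w, hw, hkw⟩ := exists_sq_eq hp h4 h5
  obtain ⟨_, hodd⟩ := odd_degree_field hp h4
  set F := ℚ⟮jIm (Real.sqrt p)⟯ with hF
  have hp0 : (p : ℝ) ≠ 0 := Nat.cast_ne_zero.2 hp.ne_zero
  have hw0 : w ≠ 0 := fun e => by
    rw [e] at hkw
    exact absurd hkw (by simpa using (mul_pos (modK_pos hs) (modKc_pos hs)).ne')
  have hθ : 1 / (4 * w) ∈ F := div_mem (one_mem F) (mul_mem (ofNat_mem F 4) hw)
  set θ := 1 / (4 * w) with hθd
  have he : (p : ℝ) * (c / w ^ 2) ^ 2 = 64 * θ ^ 4 - 1 := by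
    have h4w : 4 * p * c ^ 2 = 1 - 4 * w ^ 4 := by
      rw [show w ^ 4 = (w ^ 2) ^ 2 by ring, ← hkw, mul_pow,
        show modKc (Real.sqrt p) ^ 2 = 1 - modK (Real.sqrt p) ^ 2 by linarith [modK_sq_add hs], hl,
        ← Real.sq_sqrt (Nat.cast_nonneg (α := ℝ) p)]
      rw [Real.sqrt_sq (Real.sqrt_nonneg _)]
      ring
    rw [hθd]
    field_simp
    linear_combination (64 : ℝ) * h4w
  obtain ⟨f4, fl⟩ := quartic_natDegree (a := 64) (by norm_num)
  have hE : ℚ⟮θ⟯ ≤ F := adjoin_simple_le_iff.2 hθ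
  have hη : c / w ^ 2 ∈ ℚ⟮θ⟯ := by
    refine mem_of_sq_mem hodd hE (div_mem hc (pow_mem hw 2)) ?_
    rw [show (c / w ^ 2) ^ 2 = (64 * θ ^ 4 - 1) / p by rw [← he]; field_simp]
    exact div_mem (sub_mem (mul_mem (ofNat_mem _ 64) (pow_mem (mem_adjoin_simple_self ℚ θ) 4))
      (one_mem _)) (_root_.natCast_mem _ p)
  have hi : IsIntegral ℚ θ :=
    (isIntegral_algHom_iff F.val F.val.injective (x := (⟨θ, hθ⟩ : F))).2
      (Algebra.IsIntegral.isIntegral _)
  obtain ⟨x, y, hxy⟩ := exists_rat_point f4 (c := (p : ℚ)) (Nat.cast_ne_zero.2 hp.ne_zero)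
    (by rw [fl, show (64 : ℚ) = ((8 ^ 2 : ℕ) : ℚ) by norm_num]
        exact not_isSquare_div_prime hp 8 (by norm_num))
    hi (odd_natDegree_of_mem hodd hθ) hη (by simp [he])
  exact congruent_two_mul_of_point hp (x := x) (y := y) (by simpa using hxy)

omit h4 in
/-- **The point group** of `y² = x³ - 4 p² x`. -/
theorem point_group_two_mul (h4 : p % 4 = 3) :
    Nonempty ((⟨0, 0, 0, -((2 * p : ℕ) : ℚ) ^ 2, 0⟩ : WeierstrassCurve ℚ).toAffine.Point ≃+
      (ZMod 2 × ZMod 2) × ℤ) := by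
  haveI : NeZero p := ⟨hp.ne_zero⟩
  let P : Fin 1 → ℕ := fun _ => p
  haveI : ∀ i, NeZero (P i) := fun _ => ⟨hp.ne_zero⟩
  have hP : FA.Monsky.OddPrimes P :=
    ⟨fun _ => hp, fun _ => by simp [P]; omega, Function.injective_of_subsingleton P⟩
  obtain ⟨r, hr, ⟨e⟩⟩ := FA.Monsky.exists_rank_le_two hP
  have hM : FA.Monsky.matrixTwo P (Sum.inr 0) (Sum.inr 0) = 1 := by
    haveI := Fact.mk hp
    simp [FA.Monsky.matrixTwo, FA.Monsky.sym, P, ZMod.exists_sq_eq_neg_one_iff, h4]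
  have hker : finrank (ZMod 2) (LinearMap.ker (FA.Monsky.matrixTwo P).mulVecLin) ≤ 1 := by
    have h := LinearMap.finrank_range_add_finrank_ker (FA.Monsky.matrixTwo P).mulVecLin
    rw [Module.finrank_pi] at h
    simp only [Fintype.card_sum, Fintype.card_fin] at h
    have : finrank (ZMod 2) (LinearMap.range (FA.Monsky.matrixTwo P).mulVecLin) ≠ 0 := fun h0 => by
      rw [Submodule.finrank_eq_zero, LinearMap.range_eq_bot] at h0
      have := congrFun (DFunLike.congr_fun h0 (Pi.single (Sum.inr 0) 1)) (Sum.inr 0)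
      simp [hM] at this
    omega
  have hinf : Infinite (FA.CongruentNumber.congCurve (2 * ∏ i, P i)).toAffine.Point := by
    refine (FA.Summary.congruentNumber_iff_infinite _ ?_).1 ?_
    · simpa [P] using hp.ne_zero
    · simpa [P] using two_mul_congruent hp h4
  obtain rfl : r = 1 := by
    rcases Nat.le_one_iff_eq_zero_or_eq_one.1 (hr.trans hker) with rfl | rfl
    · exact (not_finite_iff_infinite.2 hinf (Finite.of_equiv _ e.toEquiv.symm)).elim
    · rfl
  have hprod : 2 * ∏ i, P i = 2 * p := by simp [P]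
  rw [← hprod]
  exact ⟨e.trans ((AddEquiv.refl _).prodCongr
    (AddEquiv.mk' (Equiv.funUnique (Fin 1) ℤ) fun _ _ => rfl))⟩

end FA.HeegnerCongruent

end
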