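import Fermat.Agent.ThetaAGM.Jacobi

/-!
# Landen's transformation of the modulus on the imaginary axis

`k = θ₂² / θ₃²`, `k' = θ₄² / θ₃²`, `λ = k²` and `j (i t)` as a function of `λ`, at `t / 2`, `t`
and `2 t`.
-/

set_option autoImplicit false

noncomputable section

open FA.ThetaAGM

namespace FA.HeegnerCongruent

/-- The modulus `k (i t)`. -/
def modK (t : ℝ) : ℝ := (thetaTwo t / thetaThree t) ^ 2

/-- The complementary modulus `k' (i t)`. -/
def modKc (t : ℝ) : ℝ := (thetaFour t / thetaThree t) ^ 2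

/-- `j` as a function of `λ`. -/
def jOfLam (l : ℝ) : ℝ := 256 * (1 - l + l ^ 2) ^ 3 / (l ^ 2 * (1 - l) ^ 2)

/-- `j (i t)`. -/
def jIm (t : ℝ) : ℝ := jOfLam (modK t ^ 2)

/-- `j (2 i t)` as a function of `λ (i t)`. -/
def jTwice (l : ℝ) : ℝ := 16 * (l ^ 2 - 16 * l + 16) ^ 3 / (l ^ 4 * (1 - l))

/-- `j (i t / 2)` as a function of `λ (i t)`. -/
def jHalf (l : ℝ) : ℝ := 16 * (l ^ 2 + 14 * l + 1) ^ 3 / (l * (1 - l) ^ 4)

variable {t : ℝ}

theorem modK_pos (ht : 0 < t) : 0 < modK t :=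
  pow_pos (div_pos (thetaTwo_pos ht) (thetaThree_pos ht)) 2

theorem modKc_pos (ht : 0 < t) : 0 < modKc t :=
  pow_pos (div_pos (thetaFour_pos ht) (thetaThree_pos ht)) 2

theorem modK_sq_add (ht : 0 < t) : modK t ^ 2 + modKc t ^ 2 = 1 := by
  have := thetaThree_pos ht
  rw [modK, modKc]
  field_simp
  exact quartic ht

theorem modK_lt_one (ht : 0 < t) : modK t < 1 := by
  nlinarith [modK_sq_add ht, modK_pos ht, pow_pos (modKc_pos ht) 2]

theorem modKc_lt_one (ht : 0 < t) : modKc t < 1 := by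
  nlinarith [modK_sq_add ht, modKc_pos ht, pow_pos (modK_pos ht) 2]

theorem jfun_imPt_eq (ht : 0 < t) : FA.ModField.jfun (imPt t ht) = (jIm t : ℂ) := by
  exact jfun_imPt ht (by rw [modK, ← pow_mul, div_pow])

/-- **Landen**: `k (2 i t) = (1 - k') / (1 + k')`. -/
theorem modK_double (ht : 0 < t) : modK (2 * t) = (1 - modKc t) / (1 + modKc t) := by
  have h1 := sq_add_sq ht
  have h2 := sq_sub_sq ht
  have h3 := thetaThree_pos ht
  have h4 := thetaThree_pos (show 0 < 2 * t by positivity)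
  rw [modK, modKc, div_pow, div_pow]
  field_simp
  linear_combination thetaTwo (2 * t) ^ 2 * h1 - thetaThree (2 * t) ^ 2 * h2

/-- `k' (2 i t) = 2 √k' / (1 + k')`. -/
theorem modKc_double (ht : 0 < t) :
    modKc (2 * t) = 2 * (thetaFour t / thetaThree t) / (1 + modKc t) := by
  have h1 := sq_add_sq ht
  have h2 := mul_eq_sq ht
  have h3 := thetaThree_pos ht
  have h4 := thetaThree_pos (show 0 < 2 * t by positivity)
  rw [modKc, modKc, div_pow, div_pow]
  field_simp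
  linear_combination thetaFour (2 * t) ^ 2 * h1 - 2 * thetaThree (2 * t) ^ 2 * h2

/-- `k (i t / 2) = 2 √k / (1 + k)`. -/
theorem modK_half (ht : 0 < t) :
    modK (t / 2) = 2 * (thetaTwo t / thetaThree t) / (1 + modK t) := by
  have ht2 := half_pos ht
  have hd := modK_double ht2
  rw [mul_div_cancel₀ t two_ne_zero] at hd
  have hc := modKc_pos ht2
  have e : modKc (t / 2) = (1 - modK t) / (1 + modK t) := by
    have := modK_pos ht
    rw [hd]
    field_simp
    ring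
  have h := modK_sq_add ht2
  rw [e] at h
  have h0 := modK_pos ht
  refine (pow_left_inj₀ (modK_pos ht2).le ?_ two_ne_zero).1 ?_
  · have := thetaTwo_pos ht
    have := thetaThree_pos ht
    positivity
  rw [div_pow, mul_pow, ← modK]
  field_simp at h ⊢
  linear_combination h

theorem jTwice_eq {a : ℝ} (h0 : a ≠ 0) (h1 : 1 - a ≠ 0) (h2 : 1 + a ≠ 0) :
    jOfLam (((1 - a) / (1 + a)) ^ 2) = jTwice (1 - a ^ 2) := by
  have h3 : 1 - a ^ 2 ≠ 0 := by
    rw [show 1 - a ^ 2 = (1 - a) * (1 + a) by ring]; exact mul_ne_zero h1 h2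
  rw [jOfLam, jTwice, show 1 - ((1 - a) / (1 + a)) ^ 2 = 4 * a / (1 + a) ^ 2 by field_simp; ring,
    show 1 - (1 - a ^ 2) = a ^ 2 by ring]
  field_simp
  ring

/-- `j (2 i t)`. -/
theorem jIm_double (ht : 0 < t) : jIm (2 * t) = jTwice (modK t ^ 2) := by
  have h0 := modKc_pos ht
  have h1 := modKc_lt_one ht
  rw [jIm, modK_double ht, jTwice_eq h0.ne' (by linarith) (by linarith),
    show 1 - modKc t ^ 2 = modK t ^ 2 by linarith [modK_sq_add ht]]

theorem jOfLam_half {r : ℝ} (h0 : r ≠ 0) (h1 : 1 - r ≠ 0) (h2 : 1 + r ≠ 0) :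
    jOfLam (4 * r / (1 + r) ^ 2) = jHalf (r ^ 2) := by
  have h3 : 1 - r ^ 2 ≠ 0 := by
    rw [show 1 - r ^ 2 = (1 - r) * (1 + r) by ring]; exact mul_ne_zero h1 h2
  rw [jOfLam, jHalf, show 1 - 4 * r / (1 + r) ^ 2 = (1 - r) ^ 2 / (1 + r) ^ 2 by field_simp; ring]
  field_simp
  ring

theorem modK_half_sq (ht : 0 < t) : modK (t / 2) ^ 2 = 4 * modK t / (1 + modK t) ^ 2 := by
  rw [modK_half ht, div_pow, mul_pow, ← modK]
  ring

/-- `j (i t / 2)`. -/
theorem jIm_half (ht : 0 < t) : jIm (t / 2) = jHalf (modK t ^ 2) := by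
  have h0 := modK_pos ht
  have h1 := modK_lt_one ht
  rw [jIm, modK_half_sq ht, jOfLam_half h0.ne' (by linarith) (by linarith)]

theorem jHalf_sub {l : ℝ} (h0 : l ≠ 0) (h1 : 1 - l ≠ 0) :
    jHalf l - 1728 = 16 * (l + 1) ^ 2 * (l ^ 2 - 34 * l + 1) ^ 2 / (l * (1 - l) ^ 4) := by
  rw [jHalf]
  field_simp
  ring

/-- A negative and a positive argument of `jHalf` with the same value. -/
theorem eq_neg_one_of_jHalf_eq {a b : ℝ} (ha0 : 0 < a) (ha1 : a < 1) (hb : b < 0)
    (h : jHalf b = jHalf a) : b = -1 := by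
  have hA : 0 ≤ jHalf a - 1728 := by
    rw [jHalf_sub ha0.ne' (by linarith)]
    have : 0 < 1 - a := by linarith
    positivity
  rw [← h, jHalf_sub hb.ne (by linarith)] at hA
  have hden : b * (1 - b) ^ 4 < 0 := mul_neg_of_neg_of_pos hb (pow_pos (by linarith) 4)
  have hnum : 16 * (b + 1) ^ 2 * (b ^ 2 - 34 * b + 1) ^ 2 = 0 := by
    refine le_antisymm ?_ (by positivity)
    by_contra hc
    exact absurd (div_neg_of_pos_of_neg (not_le.1 hc) hden) (not_lt.2 hA)
  have hq : b ^ 2 - 34 * b + 1 ≠ 0 := by nlinarith [sq_nonneg b]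
  simp only [mul_eq_zero, pow_eq_zero_iff, ne_eq, OfNat.ofNat_ne_zero, not_false_eq_true,
    false_or, hq, or_false] at hnum
  linarith

end FA.HeegnerCongruent

end
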