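import Fermat.Agent.HeegnerCongruent.Neighbours
import Mathlib.RingTheory.Norm.Transitivity

/-!
# The norm of `16 / (λ λ')`

In absolute value it is `2 ^ (8 h)` or `2 ^ (12 h)` as `p ≡ 3` or `7 (mod 8)`, `h` the degree of
`j(√-p)`.
-/

set_option autoImplicit false
set_option linter.style.haveILetI false

noncomputable section

open Polynomial Module IntermediateField
open FA.Singular (values)

namespace FA.HeegnerCongruent

/-- Elements with the same minimal polynomial have the same norm. -/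
theorem norm_eq_of_minpoly_eq {K L : Type*} [Field K] [Field L] [Algebra K L]
    [FiniteDimensional K L] {a b : L}
    (h : minpoly K a = minpoly K b) : Algebra.norm K a = Algebra.norm K b := by
  have hi : ∀ c : L, IsIntegral K c := fun c => Algebra.IsIntegral.isIntegral c
  have hn : ∀ c : L, Algebra.norm K (AdjoinSimple.gen K c) =
      (-1) ^ (minpoly K c).natDegree * (minpoly K c).coeff 0 := fun c => by
    have := Algebra.PowerBasis.norm_gen_eq_coeff_zero_minpoly (adjoin.powerBasis (hi c))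
    rwa [adjoin.powerBasis_gen, adjoin.powerBasis_dim, minpoly_gen] at this
  have ha := Module.finrank_mul_finrank K K⟮a⟯ L
  have hb := Module.finrank_mul_finrank K K⟮b⟯ L
  rw [adjoin.finrank (hi a)] at ha
  rw [adjoin.finrank (hi b)] at hb
  have hpos := minpoly.natDegree_pos (hi b)
  have hfr : finrank K⟮a⟯ L = finrank K⟮b⟯ L :=
    Nat.eq_of_mul_eq_mul_left hpos (by rw [hb, ← h, ha])
  rw [Algebra.norm_eq_norm_adjoin K a, Algebra.norm_eq_norm_adjoin K b, hn, hn, h, hfr]

/-- The norm of a generator over an intermediate field. -/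
theorem norm_adjoin_gen {K : IntermediateField ℚ ℂ} {a : ℂ} (hi : IsIntegral K a) :
    Algebra.norm ℚ (AdjoinSimple.gen K a) =
      Algebra.norm ℚ ((-1) ^ (minpoly K a).natDegree * (minpoly K a).coeff 0) := by
  haveI : FiniteDimensional K K⟮a⟯ := adjoin.finiteDimensional hi
  have := Algebra.PowerBasis.norm_gen_eq_coeff_zero_minpoly (adjoin.powerBasis hi)
  rw [adjoin.powerBasis_gen, adjoin.powerBasis_dim, minpoly_gen] at this
  rw [← Algebra.norm_norm (S := K), this]

/-- A ring map fixing `K` permutes the roots of a polynomial over `K`. -/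
theorem aeval_map_eq_zero {K : IntermediateField ℚ ℂ} (φ : ℂ →+* ℂ) (hφ : ∀ z ∈ K, φ z = z)
    {m : K[X]} {a : ℂ} (h : aeval a m = 0) : aeval (φ a) m = 0 := by
  have e : φ.comp (algebraMap K ℂ) = algebraMap K ℂ := RingHom.ext fun z => hφ z z.2
  rw [aeval_def] at h ⊢
  rw [← e, ← Polynomial.hom_eval₂, h, map_zero]

/-- A root other than `x` of `-(T - 256)³ / T² = -(x - 256)³ / x²`. -/
theorem quadratic_of_otherInv {x : ℝ} (hx0 : x ≠ 0) {r : ℂ} (hr0 : r ≠ 0) (hne : r ≠ x)
    (h : otherInvC r = (otherInv x : ℂ)) :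
    (x : ℂ) ^ 2 * r ^ 2 - 65536 * (3 * x - 256) * r + 16777216 * x = 0 := by
  rw [← otherInvC_ofReal, otherInvC, otherInvC,
    div_eq_div_iff (pow_ne_zero 2 hr0) (pow_ne_zero 2 (Complex.ofReal_ne_zero.2 hx0))] at h
  refine mul_left_cancel₀ (sub_ne_zero.2 hne) ?_
  linear_combination -h

theorem im_ne_zero_of_otherInv {x : ℝ} (hx : 64 < x) (hx' : x ≠ 256) {r : ℂ} (hr0 : r ≠ 0)
    (hne : r ≠ x) (h : otherInvC r = (otherInv x : ℂ)) : r.im ≠ 0 := fun him => by
  have hq := quadratic_of_otherInv (by linarith) hr0 hne h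
  rw [show r = ((r.re : ℝ) : ℂ) from Complex.ext rfl (by simp [him])] at hq
  have hq' : x ^ 2 * r.re ^ 2 - 65536 * (3 * x - 256) * r.re + 16777216 * x = 0 := by
    exact_mod_cast hq
  have h2 : 0 < (x - 64) * (x - 256) ^ 2 :=
    mul_pos (by linarith) (pow_two_pos_of_ne_zero (sub_ne_zero.2 hx'))
  nlinarith [sq_nonneg (2 * x ^ 2 * r.re - 65536 * (3 * x - 256))]

variable {p : ℕ} (hp : p.Prime) (h4 : p % 4 = 3)

include hp h4

/-- **The norm of `16 / (λ λ')`.** -/
theorem norm_rootOne (h5 : 5 ≤ p)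
    (hx : rootOne (modK (Real.sqrt p) ^ 2) ≠ 256) :
    ∀ xF : ℚ⟮jIm (Real.sqrt p)⟯, (xF : ℝ) = rootOne (modK (Real.sqrt p) ^ 2) → ∃ e,
      (e = 8 ∨ e = 12) ∧
        |Algebra.norm ℚ xF| = 2 ^ (e * finrank ℚ ℚ⟮jIm (Real.sqrt p)⟯) := by
  have hs := sqrt_pos_of_prime hp
  obtain ⟨-, c, -, -, hlF⟩ := rootOne_mem hp h4 (t := Real.sqrt p) rfl
  obtain ⟨_, -⟩ := odd_degree_field hp h4
  set t := Real.sqrt p with ht
  set F := ℚ⟮jIm t⟯ with hF
  set l := modK t ^ 2 with hl
  set x := rootOne l with hxdef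
  intro xF hxF
  have hl0 : 0 < l := pow_pos (modK_pos hs) 2
  have hl1 : 0 < 1 - l := by nlinarith [modK_pos hs, modK_lt_one hs]
  have hx64 : 64 < x := by
    rw [hxdef, rootOne, lt_div_iff₀ (mul_pos hl0 hl1)]
    have : 1 - 2 * l ≠ 0 := fun e => hlF (by
      rw [show l = 1 / 2 by linarith]; exact div_mem (one_mem F) (ofNat_mem F 2))
    nlinarith [pow_two_pos_of_ne_zero this]
  have hxc0 : (x : ℂ) ≠ 0 := Complex.ofReal_ne_zero.2 (by linarith)
  have hJx : ((x : ℂ) - 16) ^ 3 = (jIm t : ℂ) * x := by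
    have := cubic_eq hl0.ne' hl1.ne' x
    rw [← hxdef, sub_self, zero_mul, zero_mul, sub_eq_zero] at this
    exact_mod_cast this
  -- the field in `ℂ`
  set f : ℝ →ₐ[ℚ] ℂ := Complex.ofRealAm.restrictScalars ℚ with hf
  set Fc : IntermediateField ℚ ℂ := F.map f with hFc
  have hreal : ∀ z ∈ Fc, starRingEnd ℂ z = z := fun z hz => by
    obtain ⟨w, -, rfl⟩ := hz
    exact Complex.conj_ofReal w
  have hxFc : (x : ℂ) ∈ Fc := ⟨x, hxF ▸ xF.2, rfl⟩
  set xc : Fc := F.equivMap f xF with hxc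
  have hxcv : (xc : ℂ) = x := by rw [hxc, coe_equivMap_apply, hxF]; rfl
  have hN : Algebra.norm ℚ xc = Algebra.norm ℚ xF :=
    (Algebra.norm_eq_of_algEquiv (F.equivMap f) xF)
  have hFd : finrank ℚ Fc = finrank ℚ F := (F.equivMap f).toLinearEquiv.finrank_eq.symm
  haveI : FiniteDimensional ℚ Fc := (F.equivMap f).toLinearEquiv.finiteDimensional
  rw [← hN, ← hFd]
  set j : ℂ := (otherInv x : ℂ) with hjdef
  obtain ⟨z, -, hjz, hzv⟩ := otherInv_mem_values hp h4
  have hjv : j ∈ values (-(p : ℤ)) := (show FA.ModField.jfun z = j from hjz) ▸ hzv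
  obtain ⟨r, u, hr0, hrj, hru, hrcube, hr'cube, h7, h3, huJ⟩ := exists_neighbour hp h4
  have hDp : -(p : ℤ) < 0 := by have := hp.pos; omega
  have hD4 : -4 * (p : ℤ) < 0 := by have := hp.pos; omega
  have hJv := principal_mem_values hp
  have hrx : r ≠ (x : ℂ) := fun e => huJ h5 (mul_right_cancel₀ hr0 (by
    rw [← hrcube, e, hJx]))
  have him := im_ne_zero_of_otherInv hx64 hx hr0 hrx hrj
  rcases (show p % 8 = 3 ∨ p % 8 = 7 by omega) with h8 | h8
  · -- `x`, `r`, `r̄` are conjugate over `ℚ(j)`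
    set K : IntermediateField ℚ ℂ := ℚ⟮j⟯ with hK
    have hKF : K ≤ Fc := adjoin_simple_le_iff.2 (by
      rw [hjdef, ← otherInvC_ofReal, otherInvC]
      exact div_mem (neg_mem (pow_mem (sub_mem hxFc (ofNat_mem Fc 256)) 3)) (pow_mem hxFc 2))
    haveI : FiniteDimensional ℚ K :=
      Module.Finite.of_injective (IntermediateField.inclusion hKF).toLinearMap
        (IntermediateField.inclusion hKF).injective
    obtain ⟨σ, hσ⟩ := exists_aut_values hD4 hJv (h3 h8)
    have hσx : σ (x : ℂ) = r := (eq_rootOne_of_other hp h4 (σ := σ)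
      (by rw [hσ]; exact hrcube) (by rw [hrj]; exact hjv)).symm
    have hσK : ∀ z ∈ K, σ z = z := fun z hz => by
      induction hz using IntermediateField.adjoin_induction with
      | mem y hy =>
        rw [Set.mem_singleton_iff.1 hy, hjdef]
        conv_lhs => rw [← otherInvC_ofReal, otherInvC_map, hσx, hrj]
      | algebraMap q => simp
      | add a b _ _ ha hb => rw [map_add, ha, hb]
      | inv a _ ha => rw [map_inv₀, ha]
      | mul a b _ _ ha hb => rw [map_mul, ha, hb]
    set jK : K := ⟨j, mem_adjoin_simple_self ℚ j⟩ with hjK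
    set P : K[X] := (X - C 256) ^ 3 + C jK * X ^ 2 with hP
    have hPx : aeval (x : ℂ) P = 0 := by
      simp only [hP, map_add, map_mul, map_pow, map_sub, aeval_X, aeval_C, map_ofNat]
      change ((x : ℂ) - 256) ^ 3 + (otherInv x : ℂ) * (x : ℂ) ^ 2 = 0
      rw [← otherInvC_ofReal, otherInvC, div_mul_cancel₀ _ (pow_ne_zero 2 hxc0)]
      ring
    have hP3 : P.natDegree = 3 := by rw [hP]; compute_degree!
    have hPm : P.Monic := by rw [hP]; monicity!
    have hi : IsIntegral K (x : ℂ) := ⟨P, hPm, hPx⟩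
    set m := minpoly K (x : ℂ) with hm
    have hmx : aeval (x : ℂ) m = 0 := minpoly.aeval _ _
    have hmr : aeval r m = 0 := hσx ▸ aeval_map_eq_zero σ.toRingHom hσK hmx
    have hmc : aeval (starRingEnd ℂ r) m = 0 :=
      aeval_map_eq_zero (starRingEnd ℂ) (fun z hz => hreal z (hKF hz)) hmr
    have hdeg : 3 ≤ m.natDegree := by
      classical
      have hne1 : starRingEnd ℂ r ≠ r := fun e => him (Complex.conj_eq_iff_im.1 e)
      have hne2 : starRingEnd ℂ r ≠ (x : ℂ) := fun e => hrx (by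
        rw [← Complex.conj_conj r, e, Complex.conj_ofReal])
      have h0 : m.map (algebraMap K ℂ) ≠ 0 :=
        Polynomial.map_ne_zero (minpoly.ne_zero hi)
      have := Polynomial.card_le_degree_of_subset_roots (p := m.map (algebraMap K ℂ))
        (Z := {(x : ℂ), r, starRingEnd ℂ r}) (fun y hy => by
          simp only [Finset.mem_val, Finset.mem_insert, Finset.mem_singleton] at hy
          rw [mem_roots h0, IsRoot, eval_map, ← aeval_def]
          rcases hy with rfl | rfl | rfl <;> assumption)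
      rw [natDegree_map] at this
      have hcard : ({(x : ℂ), r, starRingEnd ℂ r} : Finset ℂ).card = 3 :=
        Finset.card_eq_three.2 ⟨_, _, _, hrx.symm, hne2.symm, hne1.symm, rfl⟩
      omega
    have hmP : P = m := Polynomial.eq_of_monic_of_dvd_of_natDegree_le (minpoly.monic hi) hPm
      (minpoly.dvd K _ hPx) (hP3.le.trans hdeg)
    have hdeg3 : m.natDegree = 3 := by rw [← hmP, hP3]
    have hc0 : m.coeff 0 = -16777216 := by
      rw [← hmP, hP, coeff_zero_eq_eval_zero]
      simp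
      norm_num
    have hE : K⟮(x : ℂ)⟯.restrictScalars ℚ = Fc := by
      refine le_antisymm (fun z hz => ?_) ?_
      · have : K⟮(x : ℂ)⟯ ≤ IntermediateField.extendScalars hKF := adjoin_simple_le_iff.2 hxFc
        exact this hz
      · rw [hFc, hF, adjoin_map, Set.image_singleton, adjoin_le_iff, Set.singleton_subset_iff]
        change (jIm t : ℂ) ∈ K⟮(x : ℂ)⟯
        rw [show (jIm t : ℂ) = ((x : ℂ) - 16) ^ 3 / x by rw [hJx]; field_simp]
        exact div_mem (pow_mem (sub_mem (mem_adjoin_simple_self K _) (ofNat_mem _ 16)) 3)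
          (mem_adjoin_simple_self K _)
    haveI : FiniteDimensional K K⟮(x : ℂ)⟯ := adjoin.finiteDimensional hi
    have hdim : finrank ℚ Fc = finrank ℚ K * 3 := by
      rw [← hE, ← hdeg3, ← adjoin.finrank hi]
      exact (Module.finrank_mul_finrank ℚ K K⟮(x : ℂ)⟯).symm
    have hn : Algebra.norm ℚ xc = (16777216 : ℚ) ^ finrank ℚ K := by
      have h1 := norm_adjoin_gen hi
      rw [← hm, hdeg3, hc0] at h1
      rw [show ((-1 : K) ^ 3 * -16777216) = algebraMap ℚ K 16777216 by
        rw [map_ofNat]; ring, Algebra.norm_algebraMap] at h1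
      rw [← h1]
      let e : K⟮(x : ℂ)⟯.restrictScalars ℚ ≃ₐ[ℚ] Fc := IntermediateField.equivOfEq hE
      rw [show xc = e (AdjoinSimple.gen K (x : ℂ)) from Subtype.ext hxcv]
      exact Algebra.norm_eq_of_algEquiv e _
    refine ⟨8, Or.inl rfl, ?_⟩
    rw [hn, hdim, abs_of_pos (pow_pos (by norm_num) _),
      show 8 * (finrank ℚ K * 3) = 24 * finrank ℚ K by ring, pow_mul]
    norm_num
  · -- `r` and `4096 / r` are conjugate
    obtain ⟨σ, hσ⟩ := exists_aut_values hDp hjv (h7 h8)
    set rc := σ.symm (4096 / r) with hrc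
    have hσrc : σ rc = 4096 / r := σ.apply_symm_apply _
    have hr4 : (4096 : ℂ) / r ≠ 0 := div_ne_zero (by norm_num) hr0
    have hrc0 : rc ≠ 0 := fun e => hr4 (by rw [← hσrc, e, map_zero])
    have hrcj : otherInvC rc = j := σ.injective (by rw [otherInvC_map, hσrc, hru, hσ])
    have hrcx : rc ≠ (x : ℂ) := fun e => by
      have h1 : σ (jIm t : ℂ) = j := by
        refine mul_right_cancel₀ hr4 ?_
        rw [hjdef, ← hrj, ← hr'cube, ← hσrc, e, ← map_mul, ← hJx]
        simp [map_ofNat]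
      have := values_disjoint hD4 hDp (h1 ▸ map_mem_values σ hD4 hJv) hjv
      omega
    set xF' : Fc := ⟨x, hxFc⟩ with hxF'
    set Q : Fc[X] := X ^ 2 - C (65536 * (3 * xF' - 256) / xF' ^ 2) * X + C (16777216 / xF') with hQ
    have hQroot : ∀ y : ℂ, y ≠ 0 → y ≠ x → otherInvC y = j → aeval y Q = 0 := fun y hy hyx hyj => by
      have hq := quadratic_of_otherInv (by linarith) hy hyx hyj
      simp only [hQ, map_add, map_sub, map_mul, map_pow, aeval_X, aeval_C, map_div₀, map_ofNat]
      change y ^ 2 - 65536 * (3 * (x : ℂ) - 256) / (x : ℂ) ^ 2 * y + 16777216 / (x : ℂ) = 0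
      field_simp
      linear_combination hq
    have hQ2 : Q.natDegree = 2 := by rw [hQ]; compute_degree!
    have hQm : Q.Monic := by rw [hQ]; monicity!
    have hQr := hQroot r hr0 hrx hrj
    have hi : IsIntegral Fc r := ⟨Q, hQm, hQr⟩
    have hdeg : 2 ≤ (minpoly Fc r).natDegree := by
      refine (minpoly.two_le_natDegree_iff hi).2 ?_
      rintro ⟨y, rfl⟩
      exact him (Complex.conj_eq_iff_im.1 (hreal _ y.2))
    have hQmin : Q = minpoly Fc r := Polynomial.eq_of_monic_of_dvd_of_natDegree_le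
      (minpoly.monic hi) hQm (minpoly.dvd _ _ hQr) (hQ2.le.trans hdeg)
    have hiQ : IsIntegral ℚ r := isIntegral_trans r hi
    have hconj : minpoly ℚ rc = minpoly ℚ r := by
      refine (minpoly.eq_of_irreducible_of_monic (minpoly.irreducible hiQ) ?_
        (minpoly.monic hiQ)).symm
      obtain ⟨q, hq⟩ := minpoly.dvd_map_of_isScalarTower ℚ Fc r
      rw [← aeval_map_algebraMap Fc, hq, ← hQmin, map_mul, hQroot rc hrc0 hrcx hrcj, zero_mul]
    have hconj' : minpoly ℚ (4096 / r) = minpoly ℚ r := by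
      rw [← hconj, ← hσrc]
      exact minpoly.algHom_eq σ.toRingHom.toRatAlgHom σ.injective rc
    haveI : FiniteDimensional Fc Fc⟮r⟯ := adjoin.finiteDimensional hi
    haveI : FiniteDimensional ℚ Fc⟮r⟯ := FiniteDimensional.trans ℚ Fc Fc⟮r⟯
    set g : Fc⟮r⟯ := AdjoinSimple.gen Fc r with hg
    have hg0 : g ≠ 0 := fun e => hr0 (congrArg Subtype.val e)
    have heq : Algebra.norm ℚ (4096 / g) = Algebra.norm ℚ g := by
      refine norm_eq_of_minpoly_eq ?_
      let φ : Fc⟮r⟯ →ₐ[ℚ] ℂ := (Fc⟮r⟯.val).restrictScalars ℚ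
      rw [← minpoly.algHom_eq φ φ.injective (4096 / g), ← minpoly.algHom_eq φ φ.injective g,
        map_div₀, map_ofNat]
      exact hconj'
    have hdim : finrank ℚ Fc⟮r⟯ = finrank ℚ Fc * 2 := by
      rw [← Module.finrank_mul_finrank ℚ Fc Fc⟮r⟯, adjoin.finrank hi, ← hQmin, hQ2]
    have hsq : Algebra.norm ℚ g * Algebra.norm ℚ g = (4096 : ℚ) ^ (finrank ℚ Fc * 2) := by
      nth_rewrite 2 [← heq]
      rw [← map_mul, mul_div_cancel₀ _ hg0,
        show (4096 : Fc⟮r⟯) = algebraMap ℚ Fc⟮r⟯ 4096 from (map_ofNat _ 4096).symm,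
        Algebra.norm_algebraMap, hdim]
    have hprod : Algebra.norm ℚ g * Algebra.norm ℚ xc = (16777216 : ℚ) ^ finrank ℚ Fc := by
      rw [hg, norm_adjoin_gen hi, ← hQmin, hQ2, ← map_mul,
        show ((-1 : Fc) ^ 2 * Q.coeff 0 * xc) = algebraMap ℚ Fc 16777216 by
          rw [show xc = xF' from Subtype.ext hxcv, hQ, coeff_zero_eq_eval_zero, map_ofNat]
          have : xF' ≠ 0 := fun e => hxc0 (congrArg Subtype.val e)
          simp
          field_simp, Algebra.norm_algebraMap]
    refine ⟨12, Or.inr rfl, ?_⟩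
    have h0 : Algebra.norm ℚ g ≠ 0 := Algebra.norm_ne_zero_iff.2 hg0
    have hx' : Algebra.norm ℚ xc = Algebra.norm ℚ g := mul_left_cancel₀ h0 (by
      rw [hprod, hsq, show finrank ℚ Fc * 2 = 2 * finrank ℚ Fc by ring, pow_mul]
      norm_num)
    refine (pow_left_inj₀ (abs_nonneg _) (by positivity) two_ne_zero).1 ?_
    rw [sq_abs, sq, hx', hsq, ← pow_mul,
      show 12 * finrank ℚ Fc * 2 = 12 * (finrank ℚ Fc * 2) by ring,
      pow_mul (2 : ℚ) 12]
    norm_num

end FA.HeegnerCongruent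

end
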