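import Fermat.Agent.HeegnerCongruent.Field

/-!
# The moduli at `√-p`

For a prime `p ≡ 3 (mod 4)` and `F = ℚ(j(√-p))`, `λ = 1/2 + c √p` with `c ∈ F`, and `k k'` is a
square of `F` times one of `1`, `2`, `p`, `2 p`.
-/

set_option autoImplicit false
set_option linter.style.haveILetI false

noncomputable section

open FA.ThetaAGM Polynomial Module IntermediateField

namespace FA.HeegnerCongruent

/-- The root `16 / (l (1 - l))` of `(T - 16)³ = j T`. -/
def rootOne (l : ℝ) : ℝ := 16 / (l * (1 - l))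

/-- The root `-16 (1 - l)² / l`. -/
def rootTwo (l : ℝ) : ℝ := -16 * (1 - l) ^ 2 / l

/-- The root `-16 l² / (1 - l)`. -/
def rootThree (l : ℝ) : ℝ := -16 * l ^ 2 / (1 - l)

/-- The other invariant of a root of `(T - 16)³ = j T`. -/
def otherInv (T : ℝ) : ℝ := -(T - 256) ^ 3 / T ^ 2

variable {l : ℝ}

theorem cubic_eq (h0 : l ≠ 0) (h1 : 1 - l ≠ 0) (T : ℝ) :
    (T - 16) ^ 3 - jOfLam l * T = (T - rootOne l) * (T - rootTwo l) * (T - rootThree l) := by
  rw [jOfLam, rootOne, rootTwo, rootThree]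
  field_simp
  ring

theorem root_sum_prod (h0 : l ≠ 0) (h1 : 1 - l ≠ 0) :
    rootOne l + rootTwo l + rootThree l = 48 ∧
      rootOne l * (rootTwo l * rootThree l) = 4096 := by
  rw [rootOne, rootTwo, rootThree]
  constructor <;>
  · field_simp
    ring

theorem otherInv_rootThree (h0 : l ≠ 0) (h1 : 1 - l ≠ 0) :
    otherInv (rootThree l) = jTwice l := by
  rw [otherInv, rootThree, jTwice]
  field_simp
  ring

theorem otherInv_rootTwo (h0 : l ≠ 0) (h1 : 1 - l ≠ 0) : otherInv (rootTwo l) = jHalf l := by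
  rw [otherInv, rootTwo, jHalf]
  field_simp
  ring

theorem otherInv_mem {K : IntermediateField ℚ ℝ} {T : ℝ} (hT : T ∈ K) : otherInv T ∈ K :=
  div_mem (neg_mem (pow_mem (sub_mem hT (ofNat_mem K 256)) 3)) (pow_mem hT 2)

theorem jTwice_mem {K : IntermediateField ℚ ℝ} (hl : l ∈ K) : jTwice l ∈ K :=
  div_mem (mul_mem (ofNat_mem K 16) (pow_mem (add_mem (sub_mem (pow_mem hl 2)
    (mul_mem (ofNat_mem K 16) hl)) (ofNat_mem K 16)) 3))
    (mul_mem (pow_mem hl 4) (sub_mem (one_mem K) hl))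

/-- `j (i t / 8)` as a function of `h = k (i t / 2)`. -/
theorem jHalf_landen {h : ℝ} (h0 : h ≠ 0) (h1 : 1 - h ≠ 0) (h2 : 1 + h ≠ 0) :
    jHalf (4 * h / (1 + h) ^ 2) * (4 * h * (1 + h) ^ 2 * (1 - h) ^ 8) =
      16 * (16 * h ^ 2 + 56 * h * (1 + h) ^ 2 + (1 + h) ^ 4) ^ 3 := by
  rw [jHalf, show 1 - 4 * h / (1 + h) ^ 2 = (1 - h) ^ 2 / (1 + h) ^ 2 by field_simp; ring]
  field_simp
  ring

variable {p : ℕ} (hp : p.Prime) (h4 : p % 4 = 3)

include hp h4

/-- `x = 16 / (λ λ')` lies in `ℚ(j(√-p))`, and `λ = 1/2 + c √p` with `c` there. -/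
theorem rootOne_mem {t : ℝ} (ht : t = Real.sqrt p) :
    rootOne (modK t ^ 2) ∈ ℚ⟮jIm t⟯ ∧
      ∃ c ∈ ℚ⟮jIm t⟯, modK t ^ 2 = 1 / 2 + c * t ∧ modK t ^ 2 ∉ ℚ⟮jIm t⟯ := by
  subst ht
  set t := Real.sqrt p with ht
  have ht0 : 0 < t := sqrt_pos_of_prime hp
  obtain ⟨_, hodd⟩ := odd_degree_field hp h4
  set F := ℚ⟮jIm t⟯ with hF
  set l := modK t ^ 2 with hl
  have hl0 : l ≠ 0 := (pow_pos (modK_pos ht0) 2).ne'
  have hl1 : 1 - l ≠ 0 := by nlinarith [modK_pos ht0, modK_lt_one ht0]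
  have hJ : jIm t ∈ F := mem_adjoin_simple_self ℚ _
  have ht2 : t ^ 2 ∈ F := by rw [ht, Real.sq_sqrt (Nat.cast_nonneg _)]; exact _root_.natCast_mem F p
  have htF : t ∉ F := fun h => sq_ne_of_odd hodd (q := p)
    (by rw [Rat.isSquare_natCast_iff]; exact (Nat.prime_iff.1 hp).not_isSquare) h
    (by rw [ht, Real.sq_sqrt (Nat.cast_nonneg _)]; norm_num)
  set P : F[X] := (X - 16) ^ 3 - C ⟨jIm t, hJ⟩ * X with hP
  have hPeval : ∀ T : ℝ, aeval T P =
      (T - rootOne l) * (T - rootTwo l) * (T - rootThree l) := fun T => by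
    rw [← cubic_eq hl0 hl1, hP]
    simp only [map_sub, map_pow, map_mul, aeval_X, aeval_C, map_ofNat]
    rfl
  have hP3 : P.natDegree = 3 := by rw [hP]; compute_degree!
  have hPm : P.Monic := by rw [hP]; monicity!
  have hr : aeval (rootThree l) P = 0 := by rw [hPeval, sub_self, mul_zero]
  have hi : IsIntegral F (rootThree l) := ⟨P, hPm, hr⟩
  set m := minpoly F (rootThree l) with hm
  have hmP : m ∣ P := minpoly.dvd F _ hr
  haveI : FiniteDimensional F F⟮rootThree l⟯ := adjoin.finiteDimensional hi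
  haveI : FiniteDimensional ℚ (F⟮rootThree l⟯.restrictScalars ℚ) :=
    (FiniteDimensional.trans ℚ F F⟮rootThree l⟯ : FiniteDimensional ℚ F⟮rootThree l⟯)
  have hdeg : finrank ℚ (F⟮rootThree l⟯.restrictScalars ℚ) = finrank ℚ F * m.natDegree := by
    rw [← adjoin.finrank hi]
    exact (Module.finrank_mul_finrank ℚ F F⟮rootThree l⟯).symm
  have hne : ¬ Odd m.natDegree := fun h => (not_mem_of_odd hp h4
    (E := F⟮rootThree l⟯.restrictScalars ℚ) (by rw [hdeg]; exact hodd.mul h)).1 <| by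
      rw [jIm_double ht0, ← otherInv_rootThree hl0 hl1]
      exact otherInv_mem (mem_adjoin_simple_self F (rootThree l))
  have h3F : rootThree l ∉ F := fun h => hne <| by
    rw [hm, show rootThree l = algebraMap F ℝ ⟨rootThree l, h⟩ from rfl, minpoly.eq_X_sub_C,
      natDegree_X_sub_C]
    exact odd_one
  obtain ⟨q, hq⟩ := hmP
  have hqm : q.Monic := (minpoly.monic hi).of_mul_monic_left (hq ▸ hPm)
  have hsum : m.natDegree + q.natDegree = 3 := by
    rw [← hP3, hq, (minpoly.monic hi).natDegree_mul hqm]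
  have hq1 : q.natDegree = 1 := by
    have h2 : 0 < m.natDegree := minpoly.natDegree_pos hi
    obtain ⟨k, hk⟩ := Nat.not_odd_iff_even.1 hne
    omega
  obtain ⟨r, hr'⟩ : ∃ r : F, q = X + C r := ⟨_, hqm.eq_X_add_C hq1⟩
  have hroot : aeval (-(r : ℝ)) P = 0 := by
    rw [hq, map_mul, hr', map_add, aeval_X, aeval_C]
    simp
  have hrm : -(r : ℝ) ∈ F := neg_mem r.2
  have hx : rootOne l ∈ F := by
    rw [hPeval, mul_eq_zero, mul_eq_zero, sub_eq_zero, sub_eq_zero, sub_eq_zero] at hroot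
    rcases hroot with (e | e) | e
    · exact e ▸ hrm
    · refine absurd ?_ (not_mem_of_odd hp h4 hodd).2
      rw [jIm_half ht0, ← otherInv_rootTwo hl0 hl1, ← e]
      exact otherInv_mem hrm
    · exact absurd (e ▸ hrm) h3F
  obtain ⟨hs, hpr⟩ := root_sum_prod hl0 hl1
  have hx0 : rootOne l ≠ 0 := fun e => by rw [e, zero_mul] at hpr; norm_num at hpr
  set δ := rootThree l - (48 - rootOne l) / 2 with hδ
  have hm2 : (48 - rootOne l) / 2 ∈ F := div_mem (sub_mem (ofNat_mem F 48) hx) (ofNat_mem F 2)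
  have hδ2 : δ ^ 2 ∈ F := by
    have hprod : rootTwo l * rootThree l = 4096 / rootOne l := by
      rw [← hpr]; field_simp
    rw [show δ ^ 2 = ((48 - rootOne l) / 2) ^ 2 - 4096 / rootOne l by
      rw [← hprod, hδ, show rootTwo l = 48 - rootOne l - rootThree l by linarith]; ring]
    exact sub_mem (pow_mem hm2 2) (div_mem (ofNat_mem F 4096) hx)
  have hδF : δ ∉ F := fun h => h3F <| by
    rw [show rootThree l = δ + (48 - rootOne l) / 2 by rw [hδ]; ring]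
    exact add_mem h hm2
  have h3q : rootThree l ∈ quad F δ hδ2 :=
    ⟨_, hm2, 1, one_mem F, by rw [hδ]; ring⟩
  obtain ⟨a, ha, b, hb, hab⟩ : t ∈ quad F δ hδ2 := by
    refine adjoin_simple_le_iff.2 ?_ (sqrt_mem_twice hp h4)
    rw [← ht, jIm_double ht0, ← otherInv_rootThree hl0 hl1]
    exact otherInv_mem h3q
  have hb0 : b ≠ 0 := fun e => htF (by rw [hab, e, zero_mul, add_zero]; exact ha)
  have ha0 : a = 0 :=
    (eq_zero_or_of_sq_mem hδF hδ2 ha hb (hab ▸ ht2)).resolve_right hb0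
  have h3 : rootThree l ∈ quad F t ht2 := by
    refine ⟨(48 - rootOne l) / 2, hm2, b⁻¹, inv_mem hb, ?_⟩
    rw [hab, ha0, zero_add, inv_mul_cancel_left₀ hb0, hδ]
    ring
  have hlF : l ∉ F := fun h => h3F
    (div_mem (mul_mem (neg_mem (ofNat_mem F 16)) (pow_mem h 2)) (sub_mem (one_mem F) h))
  have hlq : l ∈ quad F t ht2 := by
    have hpos : 0 < 1 - l + l ^ 2 := by nlinarith [sq_nonneg (2 * l - 1)]
    have hne' : 1 - rootThree l / 16 ≠ 0 := by
      rw [rootThree, show 1 - -16 * l ^ 2 / (1 - l) / 16 = (1 - l + l ^ 2) / (1 - l) by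
        field_simp; ring]
      exact div_ne_zero hpos.ne' hl1
    have e : l * (1 - rootThree l / 16) = 16 / rootOne l - rootThree l / 16 := by
      rw [rootThree, rootOne]
      field_simp
      ring
    rw [eq_div_of_mul_eq hne' e]
    exact div_mem (sub_mem (div_mem (ofNat_mem _ 16) (le_quad hx))
      (div_mem h3 (ofNat_mem _ 16))) (sub_mem (one_mem _) (div_mem h3 (ofNat_mem _ 16)))
  obtain ⟨a', ha', b', hb', e⟩ : 1 - 2 * l ∈ quad F t ht2 :=
    sub_mem (one_mem _) (mul_mem (ofNat_mem _ 2) hlq)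
  have hsq : (a' + b' * t) ^ 2 ∈ F := by
    rw [← e, show (1 - 2 * l) ^ 2 = 1 - 64 / rootOne l by rw [rootOne]; field_simp; ring]
    exact sub_mem (one_mem F) (div_mem (ofNat_mem F 64) hx)
  rcases eq_zero_or_of_sq_mem htF ht2 ha' hb' hsq with h | h
  · exact ⟨hx, -b' / 2, div_mem (neg_mem hb') (ofNat_mem F 2),
      by rw [h, zero_add] at e; linarith, hlF⟩
  · refine absurd ?_ hlF
    rw [show l = (1 - a') / 2 by rw [h, zero_mul, add_zero] at e; linarith]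
    exact div_mem (sub_mem (one_mem F) ha') (ofNat_mem F 2)

omit hp h4 in
/-- `√2 ν` with `ν ≠ 0` is no square in `K(√2)`. -/
theorem sq_ne_sqrt_two_mul {K : IntermediateField ℚ ℝ} (h2K : Real.sqrt 2 ∉ K)
    (h22 : Real.sqrt 2 ^ 2 ∈ K) {z ν : ℝ} (hz : z ∈ quad K (Real.sqrt 2) h22) (hν : ν ∈ K)
    (hν0 : ν ≠ 0) : z ^ 2 ≠ Real.sqrt 2 * ν := fun h => by
  obtain ⟨a, ha, b, hb, rfl⟩ := hz
  have h2 : Real.sqrt 2 ^ 2 = 2 := Real.sq_sqrt zero_le_two
  obtain ⟨e1, e2⟩ := eq_zero_of_add_mul h2K (a := a ^ 2 + 2 * b ^ 2) (b := 2 * a * b - ν)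
    (add_mem (pow_mem ha 2) (mul_mem (ofNat_mem K 2) (pow_mem hb 2)))
    (sub_mem (mul_mem (mul_mem (ofNat_mem K 2) ha) hb) hν)
    (by linear_combination h - b ^ 2 * h2)
  have ha0 : a = 0 := pow_eq_zero_iff two_ne_zero |>.1
    (le_antisymm (by nlinarith [sq_nonneg b]) (sq_nonneg a))
  rw [ha0] at e2
  exact hν0 (by linarith)

omit h4 in
/-- **Landen's transformation twice.** Over a base `F` with `λ = 1/2 + c δ`, `δ² ∈ F` and
`√2 ∉ F(δ)`: `k k' ∈ F` and `k k'` is a square of `F(δ)` times `1` or `2`. -/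
theorem modK_mul_eq_of_base (hp2 : p ≠ 2) {t : ℝ} (ht : t = Real.sqrt p)
    {F : IntermediateField ℚ ℝ} {δ c : ℝ} (hδ2 : δ ^ 2 ∈ F) (hδ : δ ∉ F) (hc : c ∈ F)
    (hl : modK t ^ 2 = 1 / 2 + c * δ) (hrF1 : Real.sqrt 2 ∉ quad F δ hδ2) :
    modK t * modKc t ∈ F ∧ ∃ d : ℕ, (d = 1 ∨ d = 2) ∧
      ∃ w ∈ quad F δ hδ2, modK t * modKc t = d * w ^ 2 := by
  subst ht
  set t := Real.sqrt p with ht
  have ht0 : 0 < t := sqrt_pos_of_prime hp
  set k := modK t with hk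
  set k' := modKc t with hk'
  have hk0 : 0 < k := modK_pos ht0
  have hk1 : k < 1 := modK_lt_one ht0
  have hk'0 : 0 < k' := modKc_pos ht0
  have hkk : k ^ 2 + k' ^ 2 = 1 := modK_sq_add ht0
  set r := Real.sqrt 2 with hr
  have hr2 : r ^ 2 = 2 := Real.sq_sqrt zero_le_two
  obtain ⟨q, hq, hδq⟩ : ∃ q ∈ F, δ ^ 2 = q := ⟨_, hδ2, rfl⟩
  set F1 := quad F δ hδ2 with hF1
  have hFF1 : F ≤ F1 := le_quad
  have hδF1 : δ ∈ F1 := self_mem_quad
  have hlF1 : k ^ 2 ∈ F1 := ⟨1 / 2, div_mem (one_mem F) (ofNat_mem F 2), c, hc, hl⟩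
  have hk'2 : k' ^ 2 ∈ F1 := by
    rw [show k' ^ 2 = 1 - k ^ 2 by linarith]
    exact sub_mem (one_mem F1) hlF1
  -- `k' ∈ √2 F(δ)`
  obtain ⟨a, ha, b, hb, hab⟩ : r ∈ quad F1 k' hk'2 := by
    refine adjoin_simple_le_iff.2 ?_ (sqrt_two_mem_four hp)
    rw [← ht, show 4 * t = 2 * (2 * t) by ring, jIm_double (by positivity), modK_double ht0]
    have h1 : k' ∈ quad F1 k' hk'2 := self_mem_quad
    exact jTwice_mem (pow_mem (div_mem (sub_mem (one_mem _) h1) (add_mem (one_mem _) h1)) 2)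
  have hk'F1 : k' ∉ F1 := fun h => hrF1 (hab ▸ add_mem ha (mul_mem hb h))
  have hb0 : b ≠ 0 := fun e => hrF1 (by rw [hab, e, zero_mul, add_zero]; exact ha)
  have ha0 : a = 0 := (eq_zero_or_of_sq_mem hk'F1 hk'2 ha hb
    (by rw [← hab, hr2]; exact ofNat_mem F1 2)).resolve_right hb0
  obtain ⟨m, hm, n, hn, hmn⟩ : b⁻¹ ∈ F1 := inv_mem hb
  have hk'e : k' = r * (m + n * δ) := by
    rw [← hmn, hab, ha0, zero_add, mul_comm b, mul_assoc, mul_inv_cancel₀ hb0, mul_one]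
  obtain ⟨e1, e2⟩ : m ^ 2 + q * n ^ 2 - 1 / 4 = 0 ∧ 2 * m * n + c / 2 = 0 := by
    refine eq_zero_of_add_mul hδ (sub_mem (add_mem (pow_mem hm 2) (mul_mem
      hq (pow_mem hn 2))) (div_mem (one_mem F) (ofNat_mem F 4)))
      (add_mem (mul_mem (mul_mem (ofNat_mem F 2) hm) hn) (div_mem hc (ofNat_mem F 2))) ?_
    have : k' ^ 2 = r ^ 2 * (m + n * δ) ^ 2 := by rw [hk'e]; ring
    rw [hr2] at this
    linear_combination (1 / 2 : ℝ) * (hkk - hl - this) - n ^ 2 * hδq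
  obtain ⟨ν, hν, hkν, hμν⟩ : ∃ ν ∈ F1, k = r * ν ∧ (m + n * δ) * ν ∈ F := by
    have hp2' : m ^ 2 - q * n ^ 2 ∈ F :=
      sub_mem (pow_mem hm 2) (mul_mem hq (pow_mem hn 2))
    have hsq : k ^ 2 = (r * (m - n * δ)) ^ 2 := by
      rw [mul_pow, hr2]
      linear_combination hl - 2 * n ^ 2 * hδq - 2 * e1 + 2 * δ * e2
    have hν0 : m - n * δ ∈ F1 := sub_mem (hFF1 hm) (mul_mem (hFF1 hn) hδF1)
    rcases sq_eq_sq_iff_eq_or_eq_neg.1 hsq with h | h
    · exact ⟨_, hν0, h, by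
        rw [show (m + n * δ) * (m - n * δ) = m ^ 2 - n ^ 2 * δ ^ 2 by ring, hδq, mul_comm (n ^ 2)]
        exact hp2'⟩
    · exact ⟨_, neg_mem hν0, h.trans (by ring), by
        rw [show (m + n * δ) * -(m - n * δ) = -(m ^ 2 - n ^ 2 * δ ^ 2) by ring, hδq,
          mul_comm (n ^ 2)]
        exact neg_mem hp2'⟩
  have hkkF : k * k' ∈ F := by
    rw [hkν, hk'e, show r * ν * (r * (m + n * δ)) = r ^ 2 * ((m + n * δ) * ν) by ring, hr2]
    exact mul_mem (ofNat_mem F 2) hμν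
  have hr2F1 : r ^ 2 ∈ F1 := hr2 ▸ ofNat_mem F1 2
  set F2 := quad F1 r hr2F1 with hF2
  have hrF2 : r ∈ F2 := self_mem_quad
  have hkF2 : k ∈ F2 := hkν ▸ mul_mem hrF2 (le_quad hν)
  have hk'F2 : k' ∈ F2 := hk'e ▸ mul_mem hrF2 (le_quad (add_mem (hFF1 hm) (mul_mem (hFF1 hn) hδF1)))
  -- the fourth roots
  set u := thetaTwo t / thetaThree t with hu
  set s := thetaFour t / thetaThree t with hs
  have hu2 : u ^ 2 = k := rfl
  have hs2 : s ^ 2 = k' := rfl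
  have huF2 : u ∉ F2 := fun h => sq_ne_sqrt_two_mul hrF1 hr2F1 h hν
    (fun e => hk0.ne' (by rw [hkν, e, mul_zero])) (by rw [hu2, hkν])
  have hsF2 : s ^ 2 ∈ F2 := hs2 ▸ hk'F2
  have hsn : s ∉ F2 := fun h => sq_ne_sqrt_two_mul hrF1 hr2F1 h
    (add_mem (hFF1 hm) (mul_mem (hFF1 hn) hδF1))
    (fun e => hk'0.ne' (by rw [hk'e, e, mul_zero])) (by rw [hs2, hk'e])
  set F3 := quad F2 s hsF2 with hF3
  have hF23 : F2 ≤ F3 := le_quad
  have hval : jIm (t / 8) ∈ F3 := by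
    refine adjoin_simple_le_iff.2 ?_ (eighth_mem hp hp2)
    have h2 : modKc (2 * t) ∈ F3 := by
      rw [modKc_double ht0]
      exact div_mem (mul_mem (ofNat_mem F3 2) self_mem_quad)
        (add_mem (one_mem F3) (hF23 hk'F2))
    rw [← ht, show 8 * t = 2 * (2 * (2 * t)) by ring, jIm_double (by positivity),
      modK_double (show 0 < 2 * t by positivity)]
    exact jTwice_mem (pow_mem (div_mem (sub_mem (one_mem F3) h2) (add_mem (one_mem F3) h2)) 2)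
  set h := modK (t / 2) with hh
  have hh0 : 0 < h := modK_pos (half_pos ht0)
  have hh1 : h < 1 := modK_lt_one (half_pos ht0)
  have he : h = 2 * u / (1 + k) := modK_half ht0
  have hh2 : h ^ 2 ∈ F3 := by
    rw [hh, modK_half_sq ht0]
    exact div_mem (mul_mem (ofNat_mem F3 4) (hF23 hkF2))
      (pow_mem (add_mem (one_mem F3) (hF23 hkF2)) 2)
  have hhF3 : h ∈ F3 := by
    by_contra hhn
    have hj : jIm (t / 8) = jHalf (4 * h / (1 + h) ^ 2) := by
      rw [show t / 8 = t / 4 / 2 by ring, jIm_half (by positivity),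
        show t / 4 = t / 2 / 2 by ring, modK_half_sq (half_pos ht0)]
    set P : F3[X] := 16 * (16 * X ^ 2 + 56 * X * (1 + X) ^ 2 + (1 + X) ^ 4) ^ 3 -
      C ⟨_, hval⟩ * (4 * X * (1 + X) ^ 2 * (1 - X) ^ 8) with hP
    have hev : ∀ T : ℝ, aeval T P = 16 * (16 * T ^ 2 + 56 * T * (1 + T) ^ 2 + (1 + T) ^ 4) ^ 3 -
        jIm (t / 8) * (4 * T * (1 + T) ^ 2 * (1 - T) ^ 8) := fun T => by
      rw [hP]
      simp only [map_sub, map_add, map_mul, map_pow, aeval_X, aeval_C, map_ofNat, map_one]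
      rfl
    have hneg := aeval_neg_eq_zero hhn hh2 (P := P) (by
      rw [hev, hj, jHalf_landen hh0.ne' (by linarith) (by linarith), sub_self])
    rw [hev, ← jHalf_landen (neg_ne_zero.2 hh0.ne') (by linarith) (by linarith), ← sub_mul,
      mul_eq_zero, sub_eq_zero] at hneg
    have hd : 4 * -h * (1 + -h) ^ 2 * (1 - -h) ^ 8 ≠ 0 :=
      mul_ne_zero (mul_ne_zero (mul_ne_zero (by norm_num) (neg_ne_zero.2 hh0.ne'))
        (pow_ne_zero 2 (by linarith))) (pow_ne_zero 8 (by linarith))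
    have hL : 4 * -h / (1 + -h) ^ 2 = -1 := by
      refine eq_neg_one_of_jHalf_eq (a := 4 * h / (1 + h) ^ 2) ?_ ?_ ?_
        ((hneg.resolve_right hd).trans hj)
      · positivity
      · rw [div_lt_one (by positivity)]; nlinarith
      · exact div_neg_of_neg_of_pos (by linarith) (pow_pos (by linarith) 2)
    rw [div_eq_iff (pow_ne_zero 2 (by linarith))] at hL
    refine hhn ?_
    rw [show h = (h ^ 2 + 1) / 6 by linear_combination (-1 / 6 : ℝ) * hL]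
    exact div_mem (add_mem hh2 (one_mem F3)) (ofNat_mem F3 6)
  obtain ⟨a₂, ha₂, b₂, hb₂, e⟩ : u ∈ F3 := by
    rw [show u = h * (1 + k) / 2 by rw [he]; field_simp]
    exact div_mem (mul_mem hhF3 (add_mem (one_mem F3) (hF23 hkF2))) (ofNat_mem F3 2)
  have hb₂0 : b₂ ≠ 0 := fun h0 => huF2 (by rw [e, h0, zero_mul, add_zero]; exact ha₂)
  have ha₂0 : a₂ = 0 := (eq_zero_or_of_sq_mem hsn hsF2 ha₂ hb₂
    (by rw [← e, hu2]; exact hkF2)).resolve_right hb₂0
  have hw2 : (b₂ * k') ^ 2 = k * k' := by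
    rw [← hu2, e, ha₂0, zero_add, mul_pow b₂ s, hs2]
    ring
  obtain ⟨a₁, ha₁, b₁, hb₁, e'⟩ : b₂ * k' ∈ F2 := mul_mem hb₂ hk'F2
  refine ⟨hkkF, ?_⟩
  rcases eq_zero_or_of_sq_mem hrF1 hr2F1 ha₁ hb₁
    (by rw [← e', hw2]; exact hFF1 hkkF) with h0 | h0
  · exact ⟨2, Or.inr rfl, b₁, hb₁, by rw [← hw2, e', h0, zero_add, mul_pow, hr2]; push_cast; ring⟩
  · exact ⟨1, Or.inl rfl, a₁, ha₁, by rw [← hw2, e', h0, zero_mul, add_zero]; simp⟩

/-- **`k k'` is a square of `ℚ(j(√-p))` times one of `1`, `2`, `p`, `2 p`.** -/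
theorem modK_mul_eq {t : ℝ} (ht : t = Real.sqrt p) :
    ∃ w ∈ ℚ⟮jIm t⟯, ∃ d : ℕ, (d = 1 ∨ d = 2 ∨ d = p ∨ d = 2 * p) ∧
      modK t * modKc t = d * w ^ 2 := by
  obtain ⟨-, c, hc, hl, hlF⟩ := rootOne_mem hp h4 ht
  obtain ⟨_, hodd⟩ := odd_degree_field hp h4
  subst ht
  set t := Real.sqrt p with ht
  set F := ℚ⟮jIm t⟯ with hF
  have htp : t ^ 2 = (p : ℝ) := Real.sq_sqrt (Nat.cast_nonneg _)
  have ht2 : t ^ 2 ∈ F := htp ▸ _root_.natCast_mem F p
  have htF : t ∉ F := fun h => hlF (hl ▸ add_mem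
    (div_mem (one_mem F) (ofNat_mem F 2)) (mul_mem hc h))
  have hrF1 : Real.sqrt 2 ∉ quad F t ht2 := fun ⟨a, ha, b, hb, e⟩ => by
    have hr2 : Real.sqrt 2 ^ 2 = 2 := Real.sq_sqrt zero_le_two
    rcases eq_zero_or_of_sq_mem htF ht2 ha hb
      (by rw [← e, hr2]; exact ofNat_mem F 2) with h | h
    · refine sq_ne_of_odd hodd (q := (2 * p : ℕ)) ?_ (mul_mem hb (_root_.natCast_mem F p)) ?_
      · rw [Rat.isSquare_natCast_iff]
        rintro ⟨m, hm⟩
        have h2m : 2 ∣ m := (Nat.prime_two.dvd_mul.1 ⟨p, hm.symm⟩).elim id id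
        obtain ⟨j, rfl⟩ := h2m
        have : 2 ∣ p := ⟨j * j, by linarith⟩
        omega
      · rw [h, zero_add] at e
        push_cast
        rw [show (b * p) ^ 2 = (b * t) ^ 2 * (p : ℝ) by rw [mul_pow b t, htp]; ring, ← e, hr2]
    · refine sq_ne_of_odd hodd (q := (2 : ℕ)) ?_ ha ?_
      · rw [Rat.isSquare_natCast_iff]
        exact (Nat.prime_iff.1 Nat.prime_two).not_isSquare
      · rw [h, zero_mul, add_zero] at e
        rw [← e, hr2]; norm_num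
  obtain ⟨hkkF, d₁, hd₁, w₁, ⟨a₀, ha₀, b₀, hb₀, rfl⟩, hkw⟩ :=
    modK_mul_eq_of_base hp (by omega) ht ht2 htF hc hl hrF1
  have hd0 : (d₁ : ℝ) ≠ 0 := by rcases hd₁ with rfl | rfl <;> norm_num
  rcases eq_zero_or_of_sq_mem htF ht2 ha₀ hb₀ (by
    rw [show (a₀ + b₀ * t) ^ 2 = modK t * modKc t / d₁ by rw [hkw]; field_simp]
    exact div_mem hkkF (_root_.natCast_mem F d₁)) with h0 | h0
  · refine ⟨b₀, hb₀, d₁ * p, by rcases hd₁ with rfl | rfl <;> simp, ?_⟩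
    rw [hkw, h0, zero_add, mul_pow, htp]
    push_cast
    ring
  · refine ⟨a₀, ha₀, d₁, by rcases hd₁ with rfl | rfl <;> simp, ?_⟩
    rw [hkw, h0, zero_mul, add_zero]

end FA.HeegnerCongruent

end
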